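import Fermat.Agent.S48.RHO.Defs
import Fermat.Agent.S29.Cyclo

/-!
# S48 RHO, R3-Cyclo : the cyclotomic character modulo an arbitrary `M`, and the determinant character

Sketch.  `zetaN M` is a primitive `M`-th root of unity of `ℚ̄`; `cycN M = IsPrimitiveRoot.autToPow ℚ`; `IsPrimitiveRoot.autToPow_spec : μ ^ (autToPow R hμ f : ZMod n).val = f μ`.
* `eq_one_of_sub_one_mem`: COPY `S29.rho3_eq_one_of_sub_one_mem` with `n := orderOf μ` instead of `p`: if `μ ≠ 1` then `1 < n`, `n ∣ M` (`orderOf_dvd_of_pow_eq_one`), `μ` is a primitive `n`-th root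
  (`IsPrimitiveRoot.orderOf`), `∑_{i<n} μ^i = 0` (`IsPrimitiveRoot.geom_sum_eq_zero`), so `n = -∑ (μ^i - 1) ∈ 𝔪_A`, so `r ∣ n ∣ M` (`S54.intCast_not_mem_nonunits`).  All the `rho3_*` lemmas of
  `S29/Cyclo.lean` can be cited.
* `eq_of_sub_mem`: as `S29.rho3_eq_of_sub_mem`.
* `cycN_frobenius`: `σ ζ - ζ ^ r ∈ 𝔪_A` (`S29.rho3_sub_pow_mem_nonunits`), both are `M`-th roots of unity, so `ζ ^ (cycN σ).val = σ ζ = ζ ^ r`; `IsPrimitiveRoot.pow_inj`/
  `IsPrimitiveRoot.pow_eq_pow_iff_modEq`-type lemma gives `(cycN σ).val ≡ r mod M`; `ZMod.natCast_eq_natCast_iff`, `ZMod.natCast_zmod_val`.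
* `cycN_inertia`: `σ ζ - ζ ∈ 𝔪_A` (`S05.sub_mem_nonunits_of_mem_inertia`), so `σ ζ = ζ`, so `ζ ^ (cycN σ).val = ζ ^ 1`...  (careful with `M = 1`: then `(ZMod 1)ˣ` is a subsingleton).
* `cycN_level`: `L = ℚ(ζ)` (as `S29.cycloChar_level`).
* `detChar`: combine with `S29.cycloChar_frobenius`, `cycloChar_inertia`, `cycloChar_level` (`r ≠ ℓ` and `¬ r ∣ M` follow from `Good M ℓ r`); for the level take the sup of the two levels.
  If `(u : ZMod M) = r` and `(cycN M σ : ZMod M) = r` then `cycN M σ = u` (`Units.ext`).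
-/

set_option autoImplicit false

namespace Fermat.Agent.S48.RHO

theorem exists_zetaN (M : ℕ) [NeZero M] : ∃ ζ : Qb, IsPrimitiveRoot ζ M :=
  HasEnoughRootsOfUnity.exists_primitiveRoot Qb M

/-- a primitive `M`-th root of unity. -/
noncomputable def zetaN (M : ℕ) [NeZero M] : Qb := (exists_zetaN M).choose

theorem zetaN_spec (M : ℕ) [NeZero M] : IsPrimitiveRoot (zetaN M) M := (exists_zetaN M).choose_spec

/-- the cyclotomic character modulo `M`. -/
noncomputable def cycN (M : ℕ) [NeZero M] : GQ →* (ZMod M)ˣ := (zetaN_spec M).autToPow ℚ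

/-- an `M`-th root of unity congruent to `1` modulo a place over `r ∤ M` is `1`. -/
theorem eq_one_of_sub_one_mem {M : ℕ} [NeZero M] {r : ℕ} (hr : r.Prime) (hrM : ¬ r ∣ M)
    (A : ValuationSubring Qb) (hA : A.LiesOverPrime r) {μ : Qb} (hμ : μ ^ M = 1)
    (h : μ - 1 ∈ A.nonunits) : μ = 1 := by
  by_contra hne
  set n := orderOf μ with hn
  have hMpos : 0 < M := Nat.pos_of_ne_zero (NeZero.ne M)
  have hnM : n ∣ M := orderOf_dvd_of_pow_eq_one hμ
  have hprim : IsPrimitiveRoot μ n := IsPrimitiveRoot.orderOf μ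
  have hnpos : 0 < n := Nat.pos_of_dvd_of_pos hnM hMpos
  have hn1 : 1 < n := by
    rcases Nat.lt_or_ge 1 n with h1 | h1
    · exact h1
    · exfalso
      have : n = 1 := by omega
      rw [hn, orderOf_eq_one_iff] at this
      exact hne this
  have hμA : μ ∈ A := S29.rho3_mem_of_pow_eq_one A hMpos hμ
  have hgeom : ∑ i ∈ Finset.range n, μ ^ i = 0 := hprim.geom_sum_eq_zero hn1
  have hsum : ∀ k : ℕ, ∑ i ∈ Finset.range k, (μ ^ i - 1) ∈ A.nonunits := by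
    intro k
    induction k with
    | zero => simp [S29.rho3_zero_mem_nonunits A]
    | succ k ih =>
      rw [Finset.sum_range_succ]
      exact Fermat.Agent.S54.nonunits_add A ih (S29.rho3_pow_sub_one_mem A hμA h k)
  have h1 := hsum n
  rw [Finset.sum_sub_distrib, hgeom] at h1
  simp only [Finset.sum_const, Finset.card_range, nsmul_eq_mul, mul_one, zero_sub] at h1
  have h2 : ((n : ℤ) : Qb) ∈ A.nonunits := by
    have := Fermat.Agent.S54.nonunits_neg A h1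
    simpa using this
  have : Algebra.IsAlgebraic ℚ Qb := AlgebraicClosure.isAlgebraic ℚ
  refine Fermat.Agent.S54.intCast_not_mem_nonunits A hr hA (n : ℤ) ?_ h2
  intro hdvd
  have : r ∣ n := by exact_mod_cast hdvd
  exact hrM (this.trans hnM)

theorem eq_of_sub_mem {M : ℕ} [NeZero M] {r : ℕ} (hr : r.Prime) (hrM : ¬ r ∣ M)
    (A : ValuationSubring Qb) (hA : A.LiesOverPrime r) {μ ν : Qb} (hμ : μ ^ M = 1)
    (hν : ν ^ M = 1) (h : μ - ν ∈ A.nonunits) : μ = ν := by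
  have hMpos : 0 < M := Nat.pos_of_ne_zero (NeZero.ne M)
  have hν0 : ν ≠ 0 := by
    intro h0
    rw [h0, zero_pow hMpos.ne'] at hν
    exact zero_ne_one hν
  have hinv : (ν⁻¹) ^ M = 1 := by rw [inv_pow, hν, inv_one]
  have h1 : μ * ν⁻¹ - 1 ∈ A.nonunits := by
    have e : μ * ν⁻¹ - 1 = (μ - ν) * ν⁻¹ := by
      rw [sub_mul, mul_inv_cancel₀ hν0]
    rw [e]
    exact Fermat.Agent.S54.nonunits_mul_mem A h (S29.rho3_mem_of_pow_eq_one A hMpos hinv)
  have h2 := eq_one_of_sub_one_mem hr hrM A hA (by rw [mul_pow, hμ, hinv, one_mul]) h1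
  field_simp at h2
  exact h2

theorem cycN_spec (M : ℕ) [NeZero M] (σ : GQ) :
    σ (zetaN M) = zetaN M ^ ((cycN M σ : (ZMod M)ˣ) : ZMod M).val :=
  ((zetaN_spec M).autToPow_spec ℚ σ).symm

theorem cycN_eq_of_apply (M : ℕ) [NeZero M] (σ : GQ) (t : ℕ) (h : σ (zetaN M) = zetaN M ^ t) :
    ((cycN M σ : (ZMod M)ˣ) : ZMod M) = (t : ZMod M) := by
  rw [cycN_spec] at h
  have hζ := zetaN_spec M
  have hMpos : 0 < M := Nat.pos_of_ne_zero (NeZero.ne M)
  have red : ∀ n : ℕ, zetaN M ^ n = zetaN M ^ (n % M) := by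
    intro n
    conv_lhs => rw [← Nat.div_add_mod n M, pow_add, pow_mul, hζ.pow_eq_one, one_pow, one_mul]
  rw [red, red t] at h
  have h1 := hζ.pow_inj (Nat.mod_lt _ hMpos) (Nat.mod_lt _ hMpos) h
  have h2 := (ZMod.natCast_eq_natCast_iff' _ _ _).2 h1
  rwa [ZMod.natCast_zmod_val] at h2

theorem cycN_frobenius (M : ℕ) [NeZero M] {r : ℕ} (hr : r.Prime) (hrM : ¬ r ∣ M)
    (A : ValuationSubring Qb) (hA : A.LiesOverPrime r) (σ : GQ) (hσ : A.IsFrobeniusAt σ r) :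
    ((cycN M σ : (ZMod M)ˣ) : ZMod M) = (r : ZMod M) := by
  have hMpos : 0 < M := Nat.pos_of_ne_zero (NeZero.ne M)
  have hζ := zetaN_spec M
  apply cycN_eq_of_apply
  apply eq_of_sub_mem hr hrM A hA
  · rw [← map_pow, hζ.pow_eq_one, map_one]
  · rw [← pow_mul, mul_comm, pow_mul, hζ.pow_eq_one, one_pow]
  · exact S29.rho3_sub_pow_mem_nonunits hσ (S29.rho3_mem_of_pow_eq_one A hMpos hζ.pow_eq_one)

theorem cycN_inertia (M : ℕ) [NeZero M] {r : ℕ} (hr : r.Prime) (hrM : ¬ r ∣ M)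
    (A : ValuationSubring Qb) (hA : A.LiesOverPrime r) (σ : GQ)
    (hσ : σ ∈ A.inertiaSubgroupIn ℚ) : cycN M σ = 1 := by
  have hMpos : 0 < M := Nat.pos_of_ne_zero (NeZero.ne M)
  have hζ := zetaN_spec M
  apply Units.ext
  rw [Units.val_one, cycN_eq_of_apply M σ 1, Nat.cast_one]
  rw [pow_one]
  apply eq_of_sub_mem hr hrM A hA
  · rw [← map_pow, hζ.pow_eq_one, map_one]
  · exact hζ.pow_eq_one
  · exact Fermat.Agent.S05.sub_mem_nonunits_of_mem_inertia hσ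
      (S29.rho3_mem_of_pow_eq_one A hMpos hζ.pow_eq_one)

theorem cycN_level (M : ℕ) [NeZero M] : GaloisFactorsThroughFiniteLevel (cycN M) := by
  have hint : IsIntegral ℚ (zetaN M) :=
    (AlgebraicClosure.isAlgebraic ℚ).isIntegral.isIntegral (zetaN M)
  refine ⟨IntermediateField.adjoin ℚ {zetaN M}, IntermediateField.adjoin.finiteDimensional hint, ?_⟩
  intro σ h
  apply Units.ext
  rw [Units.val_one, cycN_eq_of_apply M σ 1, Nat.cast_one]
  rw [pow_one]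
  exact h _ (IntermediateField.mem_adjoin_simple_self ℚ (zetaN M))

/-- the character `σ ↦ χ_ℓ(σ) δ(χ_M(σ))`. -/
noncomputable def detChar (M ℓ : ℕ) [NeZero M] [Fact ℓ.Prime] {K : Type} [Field K]
    [Algebra (ZMod ℓ) K] (δ : (ZMod M)ˣ →* Kˣ) : GQ →* Kˣ :=
  ((Units.map (algebraMap (ZMod ℓ) K : ZMod ℓ →* K)).comp (ExtCitation.cycloChar ℓ)) *
    (δ.comp (cycN M))

variable {M ℓ : ℕ} [NeZero M] [Fact ℓ.Prime] {K : Type} [Field K] [Algebra (ZMod ℓ) K]
  (δ : (ZMod M)ˣ →* Kˣ)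

theorem detChar_frobenius {r : ℕ} (hr : Good M ℓ r) (u : (ZMod M)ˣ)
    (hu : (u : ZMod M) = (r : ZMod M)) (A : ValuationSubring Qb) (hA : A.LiesOverPrime r) (σ : GQ)
    (hσ : A.IsFrobeniusAt σ r) : (detChar M ℓ δ σ : K) = (r : K) * (δ u : K) := by
  have hrM : ¬ r ∣ M := fun h => hr.2 (h.mul_right ℓ)
  have hrℓ : r ≠ ℓ := by
    rintro rfl
    exact hr.2 (Dvd.intro_left M rfl)
  have h1 : cycN M σ = u := Units.ext ((cycN_frobenius M hr.1 hrM A hA σ hσ).trans hu.symm)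
  have h2 := S29.cycloChar_frobenius ℓ hr.1 hrℓ A hA σ hσ
  simp only [detChar, MonoidHom.mul_apply, MonoidHom.comp_apply, Units.val_mul, Units.coe_map,
    MonoidHom.coe_coe]
  rw [h1, h2, map_natCast]

theorem detChar_inertia {r : ℕ} (hr : Good M ℓ r) (A : ValuationSubring Qb)
    (hA : A.LiesOverPrime r) (σ : GQ) (hσ : σ ∈ A.inertiaSubgroupIn ℚ) : detChar M ℓ δ σ = 1 := by
  have hrM : ¬ r ∣ M := fun h => hr.2 (h.mul_right ℓ)
  have hrℓ : r ≠ ℓ := by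
    rintro rfl
    exact hr.2 (Dvd.intro_left M rfl)
  simp only [detChar, MonoidHom.mul_apply, MonoidHom.comp_apply]
  rw [cycN_inertia M hr.1 hrM A hA σ hσ, S29.cycloChar_inertia ℓ hr.1 hrℓ A hA σ hσ, map_one,
    map_one, mul_one]

theorem detChar_level : GaloisFactorsThroughFiniteLevel (detChar M ℓ δ) := by
  obtain ⟨L₀, hL₀fin, hL₀⟩ := cycN_level M
  obtain ⟨L₁, hL₁fin, hL₁⟩ := S29.cycloChar_level ℓ
  refine ⟨L₀ ⊔ L₁, IntermediateField.finiteDimensional_sup L₀ L₁, fun σ hσ => ?_⟩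
  have h1 : cycN M σ = 1 := hL₀ σ fun x hx => hσ x ((le_sup_left : L₀ ≤ L₀ ⊔ L₁) hx)
  have h2 : ExtCitation.cycloChar ℓ σ = ExtCitation.cycloChar ℓ 1 :=
    hL₁ σ 1 fun x hx => by simpa using hσ x ((le_sup_right : L₁ ≤ L₀ ⊔ L₁) hx)
  simp only [detChar, MonoidHom.mul_apply, MonoidHom.comp_apply]
  rw [h1, h2, map_one, map_one, map_one, mul_one]

end Fermat.Agent.S48.RHO
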