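import Fermat.Agent.S48.RHO.Defs

/-!
# S48 RHO, R5-ModEig : a mod `ℓ` eigenform defines a character of the Hecke algebra

`Cong h lam` : for all `u, n` the coefficient `a_n(⟨u⟩ h)` is an algebraic integer and `φ (a_n(⟨u⟩h)) = lam δ(u) c_n`.

Sketch.
* `Cong.add`, `Cong.zsmul`: `co n` and `DS u` are linear; `z + z'`, `m • z` (`map_add`, `map_zsmul`, `Subalgebra.coe_add`, ...; `add_mul`).
* `Cong.diam`: `DS u (DS e h) = DS (u * e) h` (`hops.DS_mul`), `δ (u * e) = δ u * δ e`.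
* `Cong.hecke`: pick `ur` with `(ur : ZMod M) = r` (`exists_unit_of_good hr`).  `co n (DS u (TS r h)) = co n (TS r (DS u h)) = co (r n) (DS u h) + r * [r ∣ n] co (n / r) (DS ur (DS u h))` and
  `DS ur (DS u h) = DS (ur * u) h`.  With `z₁` for `(u, r n)` and `z₂` for `(ur * u, n / r)`: `z = z₁ + r * z₂` (or `z₁` if `¬ r ∣ n`), and
  `φ z = lam δ(u) c_{rn} + r lam δ(ur) δ(u) c_{n/r} = lam δ(u) (a_r c_n)` by `hrel`.
* `cong_lift`: `FreeAlgebra.induction` on `P`, the statement being quantified over `h` and `lam` (`grade0`: `AlgHom.commutes`, `Module.algebraMap_end_apply`, `eq_intCast`,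
  `Int.cast_smul_eq_zsmul`; `grade1`: `FreeAlgebra.lift_ι_apply` and cases on `i : GGen M ℓ`; `mul`: `map_mul`, `Module.End.mul_apply`; `add`).
* `lift_val_eq_zero`: `cong_lift` for `g`, `lam = 1`; take `u = 1`, `n = 1`: `z = co 1 (DS 1 0) = 0`, so `0 = φ z = lift val P * 1 * δ 1 * c 1`.
-/

set_option autoImplicit false

namespace Fermat.Agent.S48.RHO

variable {M ℓ : ℕ} {S : Type} [AddCommGroup S] [Module ℂ S] {co : ℕ → S →ₗ[ℂ] ℂ}
  {TS : ℕ → Module.End ℂ S} {DS : (ZMod M)ˣ → Module.End ℂ S} {K : Type} [Field K]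
  {φ : Zb →+* K} {δ : (ZMod M)ˣ →* Kˣ} {c a : ℕ → K}

theorem Cong.add {h h' : S} {lam lam' : K} (H : Cong co DS φ δ c h lam)
    (H' : Cong co DS φ δ c h' lam') : Cong co DS φ δ c (h + h') (lam + lam') := by
  intro u n
  obtain ⟨z, hz, hφ⟩ := H u n
  obtain ⟨z', hz', hφ'⟩ := H' u n
  refine ⟨z + z', ?_, ?_⟩
  · rw [map_add, map_add, ← hz, ← hz']
    rfl
  · rw [map_add, hφ, hφ']
    ring

theorem Cong.zsmul {h : S} {lam : K} (H : Cong co DS φ δ c h lam) (m : ℤ) :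
    Cong co DS φ δ c (m • h) ((m : K) * lam) := by
  intro u n
  obtain ⟨z, hz, hφ⟩ := H u n
  refine ⟨(m : Zb) * z, ?_, ?_⟩
  · rw [map_zsmul, map_zsmul, ← hz, zsmul_eq_mul]
    push_cast
    rfl
  · rw [map_mul, map_intCast, hφ]
    ring

theorem Cong.diam (hops : FormOps M ℓ co TS DS) {h : S} {lam : K} (H : Cong co DS φ δ c h lam)
    (e : (ZMod M)ˣ) : Cong co DS φ δ c (DS e h) ((δ e : K) * lam) := by
  intro u n
  obtain ⟨z, hz, hφ⟩ := H (u * e) n
  refine ⟨z, ?_, ?_⟩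
  · rw [hops.DS_mul, hz]
  · rw [hφ, map_mul, Units.val_mul]
    ring

theorem Cong.hecke (hops : FormOps M ℓ co TS DS) (hrel : EigRel M ℓ δ c a) {h : S} {lam : K}
    (H : Cong co DS φ δ c h lam) {r : ℕ} (hr : Good M ℓ r) :
    Cong co DS φ δ c (TS r h) (a r * lam) := by
  intro u n
  obtain ⟨ur, hur⟩ := exists_unit_of_good hr
  obtain ⟨z₁, hz₁, hφ₁⟩ := H u (r * n)
  obtain ⟨z₂, hz₂, hφ₂⟩ := H (ur * u) (n / r)
  have hR := hrel r hr ur hur n
  rw [hops.DS_TS r hr, hops.co_TS r hr ur hur, hops.DS_mul]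
  by_cases hn : r ∣ n
  · rw [if_pos hn] at hR ⊢
    refine ⟨z₁ + (r : Zb) * z₂, ?_, ?_⟩
    · rw [← hz₁, ← hz₂]
      push_cast
      rfl
    · rw [map_add, map_mul, map_natCast, hφ₁, hφ₂, map_mul, Units.val_mul]
      linear_combination (lam * (δ u : K)) * hR
  · rw [if_neg hn] at hR ⊢
    refine ⟨z₁, ?_, ?_⟩
    · rw [← hz₁, mul_zero, add_zero]
    · rw [hφ₁]
      linear_combination (lam * (δ u : K)) * hR

theorem cong_lift (hops : FormOps M ℓ co TS DS) (hrel : EigRel M ℓ δ c a)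
    (P : FreeAlgebra ℤ (GGen M ℓ)) (h : S) (lam : K) (H : Cong co DS φ δ c h lam) :
    Cong co DS φ δ c (FreeAlgebra.lift ℤ (gfam ℓ TS DS) P h)
      (FreeAlgebra.lift ℤ (gfam ℓ a (fun u => (δ u : K))) P * lam) := by
  induction P using FreeAlgebra.induction generalizing h lam with
  | grade0 m =>
    rw [AlgHom.commutes, AlgHom.commutes, Module.algebraMap_end_apply, eq_intCast]
    exact H.zsmul m
  | grade1 i =>
    rw [FreeAlgebra.lift_ι_apply, FreeAlgebra.lift_ι_apply]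
    rcases i with r | u
    · exact H.hecke hops hrel r.2
    · exact H.diam hops u
  | mul x y hx hy =>
    rw [map_mul, map_mul, Module.End.mul_apply, mul_assoc]
    exact hx _ _ (hy _ _ H)
  | add x y hx hy =>
    rw [map_add, map_add, LinearMap.add_apply, add_mul]
    exact (hx _ _ H).add (hy _ _ H)

theorem lift_val_eq_zero (hops : FormOps M ℓ co TS DS) (hrel : EigRel M ℓ δ c a) (hc1 : c 1 ≠ 0)
    (g : S) (hg : Cong co DS φ δ c g 1) (P : FreeAlgebra ℤ (GGen M ℓ))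
    (hP : FreeAlgebra.lift ℤ (gfam ℓ TS DS) P = 0) :
    FreeAlgebra.lift ℤ (gfam ℓ a (fun u => (δ u : K))) P = 0 := by
  obtain ⟨z, hz, hφ⟩ := cong_lift hops hrel P g 1 hg 1 1
  rw [hP, LinearMap.zero_apply, map_zero, map_zero] at hz
  have hz0 : z = 0 := Subtype.ext hz
  rw [hz0, map_zero, mul_one, map_one, Units.val_one, mul_one] at hφ
  exact (mul_eq_zero.1 hφ.symm).resolve_right hc1

end Fermat.Agent.S48.RHO
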