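import Fermat.Agent.S48.RHO.Eig

/-!
# S48 RHO, R6-Occurs : a character of the Hecke algebra of `H` occurs in `K ⊗ W`

Sketch.
* `glink`: `s : FreeAlgebra ℤ (GGen M ℓ) →ₐ[ℤ] FreeAlgebra ℤ (Gen M) := FreeAlgebra.lift ℤ (fun i => FreeAlgebra.ι ℤ (Sum.map Subtype.val id i))`; for every family `F : Gen M → A`:
  `(FreeAlgebra.lift ℤ F).comp s = FreeAlgebra.lift ℤ (F ∘ Sum.map Subtype.val id)` (`FreeAlgebra.hom_ext`, `FreeAlgebra.lift_ι_apply`), and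
  `Sum.elim T D ∘ Sum.map Subtype.val id = gfam ℓ T D` (`funext`, cases).  Apply `𝒦.link (s P)`.
* `TW_eq`: as `S30.convert_TW_eq`: apply `𝒦.es` to `act σ⁻¹ w`, `act σ (act σ⁻¹ w) = w`, and `𝒦.commD`.
* `TW_DW_comm`: `S54.exists_frob r hr.1` gives `(A, σ)`, `exists_unit_of_good hr` gives `u`; `TW_eq`; `DW u'` commutes with `act σ`, `act σ⁻¹` (`commD`), with `DW u` (`commDD`), and is additive (`map_add`, `map_nsmul`).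
* `TW_TW_comm`: as `S30.convert_TW_comm`, using `commT` and `TW_DW_comm`.
* `OW_comm`: cases on `i, j`.
* `κ_O`: cases.
* `mat_comm_mod`: `X := O i * O j - O j * O i`; `κ (X h) = 0` for all `h` (`κ_O`, `OW_comm`), so `X h = ℓ • h'` (`κ_ker`), so all the entries of `toMatrixAlgEquiv b X` are divisible by `ℓ`
  (as in `S30.convert_mcong`: `LinearMap.toMatrixAlgEquiv_apply`, `map_nsmul`, `Finsupp.smul_apply`), i.e. vanish in `ZMod ℓ` (`ZMod.intCast_zmod_eq_zero_iff_dvd`/`(ZMod.intCast_zmod_eq_zero_iff_dvd _ _).2`); `map_sub`, `map_mul`,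
  `Matrix.map_sub`, `sub_eq_zero`.
* `exists_eigenvector_W`: `A i := toMatrixAlgEquiv b (O i)`, `lift A P = toMatrixAlgEquiv b (lift O P)` (`FreeAlgebra.hom_ext` for `(toMatrixAlgEquiv b).toAlgHom.comp (lift O)`, as `S29.lift_matT`);
  `CharP K ℓ` from `charP_of_injective_algebraMap (algebraMap (ZMod ℓ) K).injective ℓ`; `exists_eigenvector_mod`; then
  `S29.exists_eigenvector_of_kappa b 𝒦.κ 𝒦.κ_ker v hv` and for each `i` its conclusion with `T := O i`, `TW := S29.linOf (OW i)`, `c := val i` (`S29.linOf_apply`, `κ_O`).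
-/

set_option autoImplicit false

open scoped TensorProduct

namespace Fermat.Agent.S48.RHO

variable {M ℓ : ℕ} {S : Type} [AddCommGroup S] [Module ℂ S]
  {TS : ℕ → Module.End ℂ S} {DS : (ZMod M)ˣ → Module.End ℂ S} (𝒦 : Kummer1 M ℓ TS DS)

theorem Kummer1.glink (P : FreeAlgebra ℤ (GGen M ℓ))
    (hP : FreeAlgebra.lift ℤ (gfam ℓ 𝒦.T 𝒦.D) P = 0) :
    FreeAlgebra.lift ℤ (gfam ℓ TS DS) P = 0 := by
  let s : FreeAlgebra ℤ (GGen M ℓ) →ₐ[ℤ] FreeAlgebra ℤ (Gen M) :=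
    FreeAlgebra.lift ℤ (fun i => FreeAlgebra.ι ℤ (Sum.map Subtype.val id i))
  have key : ∀ {A : Type} [Ring A] [Algebra ℤ A] (T : ℕ → A) (D : (ZMod M)ˣ → A),
      (FreeAlgebra.lift ℤ (Sum.elim T D)).comp s = FreeAlgebra.lift ℤ (gfam ℓ T D) := by
    intro A _ _ T D
    apply FreeAlgebra.hom_ext
    funext i
    simp only [Function.comp_apply, AlgHom.comp_apply, FreeAlgebra.lift_ι_apply, s]
    rcases i with i | i <;> rfl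
  have h1 : FreeAlgebra.lift ℤ (Sum.elim 𝒦.T 𝒦.D) (s P) = 0 := by
    rw [← AlgHom.comp_apply, key, hP]
  have h2 := 𝒦.link (s P) h1
  rw [← AlgHom.comp_apply, key] at h2
  exact h2

theorem Kummer1.TW_eq {r : ℕ} (hr : Good M ℓ r) (u : (ZMod M)ˣ)
    (hu : (u : ZMod M) = (r : ZMod M)) (A : ValuationSubring Qb) (hA : A.LiesOverPrime r) (σ : GQ)
    (hσ : A.IsFrobeniusAt σ r) (w : 𝒦.W) :
    𝒦.TW r w = 𝒦.act σ w + r • 𝒦.DW u (𝒦.act σ⁻¹ w) := by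
  have h1 := 𝒦.es r hr u hu A hA σ hσ (𝒦.act σ⁻¹ w)
  have h2 : 𝒦.act σ (𝒦.act σ⁻¹ w) = w := by
    have : (𝒦.act σ * 𝒦.act σ⁻¹) w = w := by rw [← map_mul, mul_inv_cancel, map_one]; rfl
    exact this
  rw [h2] at h1
  exact h1.symm

theorem Kummer1.TW_DW_comm {r : ℕ} (hr : Good M ℓ r) (u' : (ZMod M)ˣ) (w : 𝒦.W) :
    𝒦.TW r (𝒦.DW u' w) = 𝒦.DW u' (𝒦.TW r w) := by
  obtain ⟨A, σ, hA, hσ⟩ := Fermat.Agent.S54.exists_frob r hr.1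
  obtain ⟨u, hu⟩ := exists_unit_of_good hr
  rw [𝒦.TW_eq hr u hu A hA σ hσ w, 𝒦.TW_eq hr u hu A hA σ hσ (𝒦.DW u' w), map_add, map_nsmul,
    𝒦.commD u', 𝒦.commDD u' u, 𝒦.commD u']

theorem Kummer1.TW_TW_comm {r r' : ℕ} (hr : Good M ℓ r) (hr' : Good M ℓ r') (w : 𝒦.W) :
    𝒦.TW r (𝒦.TW r' w) = 𝒦.TW r' (𝒦.TW r w) := by
  obtain ⟨A, σ, hA, hσ⟩ := Fermat.Agent.S54.exists_frob r' hr'.1
  obtain ⟨u, hu⟩ := exists_unit_of_good hr'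
  rw [𝒦.TW_eq hr' u hu A hA σ hσ w, 𝒦.TW_eq hr' u hu A hA σ hσ (𝒦.TW r w), map_add, map_nsmul,
    𝒦.commT r hr, 𝒦.TW_DW_comm hr, 𝒦.commT r hr]

theorem Kummer1.OW_comm (i j : GGen M ℓ) (w : 𝒦.W) :
    gfam ℓ 𝒦.TW 𝒦.DW i (gfam ℓ 𝒦.TW 𝒦.DW j w) = gfam ℓ 𝒦.TW 𝒦.DW j (gfam ℓ 𝒦.TW 𝒦.DW i w) := by
  rcases i with i | i <;> rcases j with j | j
  · exact 𝒦.TW_TW_comm i.2 j.2 w
  · exact 𝒦.TW_DW_comm i.2 j w
  · exact (𝒦.TW_DW_comm j.2 i w).symm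
  · exact 𝒦.commDD i j w

theorem Kummer1.κ_O (i : GGen M ℓ) (h : 𝒦.H) :
    𝒦.κ (gfam ℓ 𝒦.T 𝒦.D i h) = gfam ℓ 𝒦.TW 𝒦.DW i (𝒦.κ h) := by
  rcases i with i | i
  · exact 𝒦.κ_T i.1 i.2 h
  · exact 𝒦.κ_D i h

theorem Kummer1.mat_comm_mod {n : ℕ} (b : Module.Basis (Fin n) ℤ 𝒦.H) (i j : GGen M ℓ) :
    (LinearMap.toMatrixAlgEquiv b (gfam ℓ 𝒦.T 𝒦.D i) *
        LinearMap.toMatrixAlgEquiv b (gfam ℓ 𝒦.T 𝒦.D j)).map (Int.castRingHom (ZMod ℓ)) =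
      (LinearMap.toMatrixAlgEquiv b (gfam ℓ 𝒦.T 𝒦.D j) *
        LinearMap.toMatrixAlgEquiv b (gfam ℓ 𝒦.T 𝒦.D i)).map (Int.castRingHom (ZMod ℓ)) := by
  rw [← map_mul, ← map_mul]
  ext a c
  rw [Matrix.map_apply, Matrix.map_apply, ← sub_eq_zero, ← map_sub,
    LinearMap.toMatrixAlgEquiv_apply, LinearMap.toMatrixAlgEquiv_apply, ← Finsupp.sub_apply,
    ← map_sub]
  obtain ⟨h', hh'⟩ := 𝒦.κ_ker
    ((gfam ℓ 𝒦.T 𝒦.D i * gfam ℓ 𝒦.T 𝒦.D j) (b c) - (gfam ℓ 𝒦.T 𝒦.D j * gfam ℓ 𝒦.T 𝒦.D i) (b c))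
    (by
      rw [map_sub, sub_eq_zero, Module.End.mul_apply, Module.End.mul_apply, 𝒦.κ_O, 𝒦.κ_O, 𝒦.κ_O,
        𝒦.κ_O, 𝒦.OW_comm])
  rw [hh', map_nsmul, Finsupp.smul_apply]
  simp

theorem Kummer1.exists_eigenvector_W [Fact ℓ.Prime] {K : Type} [Field K] [Algebra (ZMod ℓ) K]
    (val : GGen M ℓ → K)
    (hval : ∀ P : FreeAlgebra ℤ (GGen M ℓ), FreeAlgebra.lift ℤ (gfam ℓ 𝒦.T 𝒦.D) P = 0 →
      FreeAlgebra.lift ℤ val P = 0) :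
    ∃ w : K ⊗[ZMod ℓ] 𝒦.W, w ≠ 0 ∧ ∀ i : GGen M ℓ,
      (S29.linOf (p := ℓ) (gfam ℓ 𝒦.TW 𝒦.DW i)).baseChange K w = val i • w := by
  have : CharP K ℓ := charP_of_injective_algebraMap (algebraMap (ZMod ℓ) K).injective ℓ
  let b := Module.finBasis ℤ 𝒦.H
  let A : GGen M ℓ → Matrix (Fin (Module.finrank ℤ 𝒦.H)) (Fin (Module.finrank ℤ 𝒦.H)) ℤ :=
    fun i => LinearMap.toMatrixAlgEquiv b (gfam ℓ 𝒦.T 𝒦.D i)
  have h1 : ((LinearMap.toMatrixAlgEquiv b).toAlgHom.comp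
      (FreeAlgebra.lift ℤ (gfam ℓ 𝒦.T 𝒦.D))) = FreeAlgebra.lift ℤ A := by
    apply FreeAlgebra.hom_ext
    funext i
    simp only [Function.comp_apply, AlgHom.comp_apply, FreeAlgebra.lift_ι_apply, A]
    rfl
  have hA : ∀ P : FreeAlgebra ℤ (GGen M ℓ), FreeAlgebra.lift ℤ A P = 0 →
      FreeAlgebra.lift ℤ val P = 0 := by
    intro P hP
    apply hval
    rw [← h1] at hP
    exact (LinearMap.toMatrixAlgEquiv b).injective (hP.trans (map_zero _).symm)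
  obtain ⟨v, hv, hv2⟩ := exists_eigenvector_mod (ℓ := ℓ) A (fun i j => 𝒦.mat_comm_mod b i j) val hA
  obtain ⟨w, hw, hw2⟩ := S29.exists_eigenvector_of_kappa (p := ℓ) b 𝒦.κ 𝒦.κ_ker v hv
  refine ⟨w, hw, fun i => ?_⟩
  exact hw2 (gfam ℓ 𝒦.T 𝒦.D i) (S29.linOf (p := ℓ) (gfam ℓ 𝒦.TW 𝒦.DW i)) (val i)
    (fun h => 𝒦.κ_O i h) (hv2 i)

end Fermat.Agent.S48.RHO
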