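import Fermat.Agent.S48.RHO.Core
import Fermat.Agent.S48.RHO.Cyclo
import Fermat.Agent.S48.RHO.ModEig
import Fermat.Agent.S48.RHO.Occurs

/-!
# S48 RHO : Theorem A, modulo the geometric input `Kummer1`

A mod `ℓ` eigenform `c` (reduction of a form `g` of weight two all of whose diamond translates have integral coefficients), with eigenvalues `a r` and nebentypus `δ`, has a semisimple
two dimensional Galois representation over `K`, unramified outside `M ℓ`, with `tr Frob_r = a r`, `det Frob_r = r δ(r)`.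
-/

set_option autoImplicit false

open scoped TensorProduct

namespace Fermat.Agent.S48.RHO

/-- every element of `K ⊗ W` is fixed by an open subgroup. -/
theorem smooth_tensor {ℓ : ℕ} {W : Type} [AddCommGroup W] [Module (ZMod ℓ) W] {K : Type} [Field K]
    [Algebra (ZMod ℓ) K] (ρ : GQ →* Module.End (ZMod ℓ) W)
    (hsm : ∀ w : W, ∃ L : IntermediateField ℚ Qb, FiniteDimensional ℚ L ∧
      ∀ σ : GQ, (∀ x ∈ L, σ x = x) → ρ σ w = w) (x : K ⊗[ZMod ℓ] W) :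
    ∃ L : IntermediateField ℚ Qb, FiniteDimensional ℚ L ∧
      ∀ σ : GQ, (∀ y ∈ L, σ y = y) → (ρ σ).baseChange K x = x := by
  induction x using TensorProduct.induction_on with
  | zero => exact ⟨⊥, inferInstance, fun σ _ => map_zero _⟩
  | tmul k w =>
    obtain ⟨L, hL, h⟩ := hsm w
    exact ⟨L, hL, fun σ hσ => by rw [LinearMap.baseChange_tmul, h σ hσ]⟩
  | add x y hx hy =>
    obtain ⟨L₁, hL₁, h₁⟩ := hx
    obtain ⟨L₂, hL₂, h₂⟩ := hy
    refine ⟨L₁ ⊔ L₂, IntermediateField.finiteDimensional_sup L₁ L₂, fun σ hσ => ?_⟩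
    rw [map_add, h₁ σ fun y hy => hσ y ((le_sup_left : L₁ ≤ L₁ ⊔ L₂) hy),
      h₂ σ fun y hy => hσ y ((le_sup_right : L₂ ≤ L₁ ⊔ L₂) hy)]

/-- **Theorem A**, modulo the geometric input. -/
theorem theoremA {M ℓ : ℕ} [NeZero M] [Fact ℓ.Prime] {S : Type} [AddCommGroup S] [Module ℂ S]
    {co : ℕ → S →ₗ[ℂ] ℂ} {TS : ℕ → Module.End ℂ S} {DS : (ZMod M)ˣ → Module.End ℂ S}
    (hops : FormOps M ℓ co TS DS) (𝒦 : Kummer1 M ℓ TS DS)
    {K : Type} [Field K] [IsAlgClosed K] [CharP K ℓ] (φ : Zb →+* K)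
    (δ : (ZMod M)ˣ →* Kˣ) (c a : ℕ → K) (hc1 : c 1 ≠ 0) (hrel : EigRel M ℓ δ c a)
    (g : S) (hg : Cong co DS φ δ c g 1) :
    ∃ ρ : GQ →* GL (Fin 2) K, GaloisFactorsThroughFiniteLevel ρ ∧ IsSS ρ ∧
      ∀ r : ℕ, Good M ℓ r → ∀ u : (ZMod M)ˣ, (u : ZMod M) = (r : ZMod M) →
        GoodAt ρ r (a r) ((r : K) * (δ u : K)) := by
  let _ : Algebra (ZMod ℓ) K := ZMod.algebra K ℓ
  have hℓ : ℓ.Prime := Fact.out
  have hB : M * ℓ ≠ 0 := mul_ne_zero (NeZero.ne M) hℓ.ne_zero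
  set val : GGen M ℓ → K := gfam ℓ a (fun u => (δ u : K)) with hval
  obtain ⟨w, hw0, hw⟩ := 𝒦.exists_eigenvector_W val
    (fun P hP => lift_val_eq_zero hops hrel hc1 g hg P (𝒦.glink P hP))
  let lin : AddMonoid.End 𝒦.W →* Module.End (ZMod ℓ) 𝒦.W := S29.linOf (p := ℓ)
  have hlin : ∀ (f : AddMonoid.End 𝒦.W) (x : 𝒦.W), lin f x = f x := fun f x => rfl
  let bc : Module.End (ZMod ℓ) 𝒦.W →ₐ[ZMod ℓ] Module.End K (K ⊗[ZMod ℓ] 𝒦.W) :=
    Module.End.baseChangeHom (ZMod ℓ) K 𝒦.W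
  have hbc : ∀ f, bc f = f.baseChange K := fun f => rfl
  let R : GQ →* Module.End K (K ⊗[ZMod ℓ] 𝒦.W) := (bc : _ →* _).comp (lin.comp 𝒦.act)
  have hR : ∀ σ, R σ = bc (lin (𝒦.act σ)) := fun σ => rfl
  let O : GGen M ℓ → Module.End K (K ⊗[ZMod ℓ] 𝒦.W) := fun i => bc (lin (gfam ℓ 𝒦.TW 𝒦.DW i))
  obtain ⟨E, hmemE⟩ : ∃ E : Submodule K (K ⊗[ZMod ℓ] 𝒦.W), ∀ x, x ∈ E ↔ ∀ i, O i x = val i • x := by
    refine ⟨⨅ i, LinearMap.ker (O i - val i • 1), ?_⟩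
    intro x
    simp only [Submodule.mem_iInf, LinearMap.mem_ker, LinearMap.sub_apply, LinearMap.smul_apply,
      Module.End.one_apply, sub_eq_zero]
  have hE0 : E ≠ ⊥ := by
    intro h0
    apply hw0
    have : w ∈ E := (hmemE w).2 hw
    rw [h0] at this
    simpa using this
  have hcomm : ∀ i σ, O i * R σ = R σ * O i := by
    intro i σ
    have h1 : lin (gfam ℓ 𝒦.TW 𝒦.DW i) * lin (𝒦.act σ) =
        lin (𝒦.act σ) * lin (gfam ℓ 𝒦.TW 𝒦.DW i) := by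
      refine LinearMap.ext fun x => ?_
      rcases i with r | u
      · exact 𝒦.commT r.1 r.2 σ x
      · exact 𝒦.commD u σ x
    change bc (lin (gfam ℓ 𝒦.TW 𝒦.DW i)) * bc (lin (𝒦.act σ)) =
      bc (lin (𝒦.act σ)) * bc (lin (gfam ℓ 𝒦.TW 𝒦.DW i))
    rw [← map_mul, h1, map_mul]
  have hE : ∀ σ, ∀ x ∈ E, R σ x ∈ E := by
    intro σ x hx
    rw [hmemE] at hx ⊢
    intro i
    have h4 := congrArg (fun f : Module.End K (K ⊗[ZMod ℓ] 𝒦.W) => f x) (hcomm i σ)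
    simp only [Module.End.mul_apply] at h4
    rw [h4, hx i, map_smul]
  have hsm : ∀ x : K ⊗[ZMod ℓ] 𝒦.W, ∃ L : IntermediateField ℚ Qb, FiniteDimensional ℚ L ∧
      ∀ σ : GQ, (∀ y ∈ L, σ y = y) → R σ x = x :=
    smooth_tensor (lin.comp 𝒦.act) 𝒦.smooth
  have hfrob : ∀ r : ℕ, r.Prime → ¬ r ∣ M * ℓ → ∀ A : ValuationSubring Qb, A.LiesOverPrime r →
      ∀ σ : GQ, A.IsFrobeniusAt σ r → ∀ x ∈ E,
        R σ (R σ x) - a r • R σ x + (detChar M ℓ δ σ : K) • x = 0 := by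
    intro r h1 h2 A hA σ hσ x hx
    have hr : Good M ℓ r := ⟨h1, h2⟩
    obtain ⟨u, hu⟩ := exists_unit_of_good hr
    rw [detChar_frobenius δ hr u hu A hA σ hσ]
    have h3 : lin (𝒦.act σ) * lin (𝒦.act σ) + (r : ZMod ℓ) • lin (𝒦.DW u) =
        lin (𝒦.TW r) * lin (𝒦.act σ) := by
      refine LinearMap.ext fun y => ?_
      have := 𝒦.es r hr u hu A hA σ hσ y
      simp only [LinearMap.add_apply, Module.End.mul_apply, LinearMap.smul_apply, hlin]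
      rw [Nat.cast_smul_eq_nsmul]
      exact this
    have h4 := congrArg bc h3
    rw [map_add, map_mul, map_mul, map_smul] at h4
    have h5 := congrArg (fun f : Module.End K (K ⊗[ZMod ℓ] 𝒦.W) => f x) h4
    simp only [LinearMap.add_apply, Module.End.mul_apply, LinearMap.smul_apply] at h5
    have h6 : bc (lin (𝒦.DW u)) x = (δ u : K) • x := (hmemE x).1 hx (Sum.inr u)
    have h7 : bc (lin (𝒦.TW r)) (R σ x) = a r • R σ x := (hmemE _).1 (hE σ x hx) (Sum.inl ⟨r, hr⟩)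
    rw [← hR, h6, h7, Nat.cast_smul_eq_nsmul] at h5
    rw [← h5, mul_smul, Nat.cast_smul_eq_nsmul]
    abel
  have hunr : ∀ r : ℕ, r.Prime → ¬ r ∣ M * ℓ → ∀ A : ValuationSubring Qb, A.LiesOverPrime r →
      ∀ σ ∈ A.inertiaSubgroupIn ℚ, (∀ x ∈ E, R σ x = x) ∧ detChar M ℓ δ σ = 1 := by
    intro r h1 h2 A hA σ hσ
    have hr : Good M ℓ r := ⟨h1, h2⟩
    refine ⟨fun x _ => ?_, detChar_inertia δ hr A hA σ hσ⟩
    have h3 : 𝒦.act σ = 1 := by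
      ext y
      exact 𝒦.unram r hr A hA σ hσ y
    rw [hR, h3, map_one, map_one]
    rfl
  obtain ⟨ρ, hlev, hss, hgood⟩ := exists_rep_of_vector R hsm E hE0 hE (detChar M ℓ δ)
    (detChar_level δ) (M * ℓ) hB a hfrob hunr
  refine ⟨ρ, hlev, hss, fun r hr u hu A hA => ?_⟩
  obtain ⟨h1, h2⟩ := hgood r hr.1 hr.2 A hA
  refine ⟨h1, fun σ hσ => ?_⟩
  obtain ⟨h3, h4⟩ := h2 σ hσ
  exact ⟨h3, by rw [h4, detChar_frobenius δ hr u hu A hA σ hσ]⟩

end Fermat.Agent.S48.RHO
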