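import Fermat.Agent.S48.Defs
import Fermat.Agent.S29.Bridge

/-!
# S48, chapter RHO (RHO1 + MODEIG): definitions

The interface between the geometric chapters (twins of GES / NV / CC / PER for `Γ₁(M)`) and Theorem A.

* `S` is the space of cusp forms of weight two (`CuspForm (Gamma1 M) 2`, or the forms on an intermediate group), `co n` its `n`-th `q`-coefficient, `TS r` the Hecke
  operators, `DS u` the diamond operators: the record `FormOps` collects the (formal) properties which are used.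
* `Kummer1 M ℓ TS DS` is the twin of `S31.KummerSystem` (only the level `n = 1`), with diamond operators.  NO commutativity of the Hecke operators on `H` is asked, and on
  `W` only `DW u` with `DW u'`.
* `Cong` : "`h ≡ lam * (the mod ℓ eigenform c)`, together with all its diamond translates".
-/

set_option autoImplicit false

open scoped TensorProduct

namespace Fermat.Agent.S48.RHO

/-- `r` is a prime not dividing `M ℓ`. -/
def Good (M ℓ r : ℕ) : Prop := r.Prime ∧ ¬ r ∣ M * ℓ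

theorem exists_unit_of_good {M ℓ r : ℕ} (hr : Good M ℓ r) :
    ∃ u : (ZMod M)ˣ, (u : ZMod M) = (r : ZMod M) := by
  have h : Nat.Coprime r M :=
    (Nat.Prime.coprime_iff_not_dvd hr.1).2 fun h => hr.2 (h.mul_right ℓ)
  exact ⟨ZMod.unitOfCoprime r h, ZMod.coe_unitOfCoprime r h⟩

/-- generators of the Hecke algebra: `T_r` (`r : ℕ`) and `⟨u⟩`. -/
abbrev Gen (M : ℕ) : Type := ℕ ⊕ (ZMod M)ˣ

/-- generators of the Hecke algebra: `T_r` (`r` a good prime) and `⟨u⟩`. -/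
abbrev GGen (M ℓ : ℕ) : Type := {r : ℕ // Good M ℓ r} ⊕ (ZMod M)ˣ

/-- restriction of a family indexed by `Gen M` to the good generators. -/
def gfam {M : ℕ} (ℓ : ℕ) {A : Type*} (T : ℕ → A) (D : (ZMod M)ˣ → A) : GGen M ℓ → A :=
  Sum.elim (fun r => T r.1) D

/-- the formal properties of `q`-coefficients, Hecke operators and diamond operators. -/
structure FormOps (M ℓ : ℕ) {S : Type} [AddCommGroup S] [Module ℂ S] (co : ℕ → S →ₗ[ℂ] ℂ)
    (TS : ℕ → Module.End ℂ S) (DS : (ZMod M)ˣ → Module.End ℂ S) : Prop where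
  DS_mul : ∀ (u u' : (ZMod M)ˣ) (h : S), DS u (DS u' h) = DS (u * u') h
  DS_TS : ∀ r : ℕ, Good M ℓ r → ∀ (u : (ZMod M)ˣ) (h : S), DS u (TS r h) = TS r (DS u h)
  co_TS : ∀ r : ℕ, Good M ℓ r → ∀ u : (ZMod M)ˣ, (u : ZMod M) = (r : ZMod M) → ∀ (h : S) (n : ℕ),
    co n (TS r h) = co (r * n) h + (r : ℂ) * (if r ∣ n then co (n / r) (DS u h) else 0)

/-- The Kummer classes modulo `ℓ` of the modular curve, with their integral structure (twin of `S31.KummerSystem`, level `n = 1` only, with diamond operators). -/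
structure Kummer1 (M ℓ : ℕ) {S : Type} [AddCommGroup S] [Module ℂ S]
    (TS : ℕ → Module.End ℂ S) (DS : (ZMod M)ˣ → Module.End ℂ S) : Type 1 where
  H : Type
  [instH : AddCommGroup H]
  [instFree : Module.Free ℤ H]
  [instFinite : Module.Finite ℤ H]
  T : ℕ → Module.End ℤ H
  D : (ZMod M)ˣ → Module.End ℤ H
  link : ∀ P : FreeAlgebra ℤ (Gen M), FreeAlgebra.lift ℤ (Sum.elim T D) P = 0 →
    FreeAlgebra.lift ℤ (Sum.elim TS DS) P = 0
  W : Type
  [instW : AddCommGroup W]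
  tors : ∀ w : W, ℓ • w = 0
  act : GQ →* AddMonoid.End W
  smooth : ∀ w : W, ∃ L : IntermediateField ℚ Qb, FiniteDimensional ℚ L ∧
    ∀ σ : GQ, (∀ x ∈ L, σ x = x) → act σ w = w
  TW : ℕ → AddMonoid.End W
  DW : (ZMod M)ˣ → AddMonoid.End W
  commT : ∀ r : ℕ, Good M ℓ r → ∀ (σ : GQ) (w : W), TW r (act σ w) = act σ (TW r w)
  commD : ∀ (u : (ZMod M)ˣ) (σ : GQ) (w : W), DW u (act σ w) = act σ (DW u w)
  commDD : ∀ (u u' : (ZMod M)ˣ) (w : W), DW u (DW u' w) = DW u' (DW u w)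
  es : ∀ r : ℕ, Good M ℓ r → ∀ u : (ZMod M)ˣ, (u : ZMod M) = (r : ZMod M) →
    ∀ A : ValuationSubring Qb, A.LiesOverPrime r → ∀ σ : GQ, A.IsFrobeniusAt σ r →
      ∀ w : W, act σ (act σ w) + r • DW u w = TW r (act σ w)
  unram : ∀ r : ℕ, Good M ℓ r →
    ∀ A : ValuationSubring Qb, A.LiesOverPrime r → ∀ σ ∈ A.inertiaSubgroupIn ℚ,
      ∀ w : W, act σ w = w
  κ : H →+ W
  κ_ker : ∀ h : H, κ h = 0 → ∃ h' : H, h = ℓ • h'
  κ_T : ∀ r : ℕ, Good M ℓ r → ∀ h : H, κ (T r h) = TW r (κ h)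
  κ_D : ∀ (u : (ZMod M)ˣ) (h : H), κ (D u h) = DW u (κ h)

attribute [instance] Kummer1.instH Kummer1.instFree Kummer1.instFinite Kummer1.instW

/-- `W` is an `𝔽_ℓ`-vector space. -/
noncomputable instance Kummer1.instModW {M ℓ : ℕ} {S : Type} [AddCommGroup S] [Module ℂ S]
    {TS : ℕ → Module.End ℂ S} {DS : (ZMod M)ˣ → Module.End ℂ S} (𝒦 : Kummer1 M ℓ TS DS) :
    Module (ZMod ℓ) 𝒦.W :=
  AddCommGroup.zmodModule 𝒦.tors

/-- `h ≡ lam * c` modulo `φ`, together with all its diamond translates. -/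
def Cong {M : ℕ} {S : Type} [AddCommGroup S] [Module ℂ S] (co : ℕ → S →ₗ[ℂ] ℂ)
    (DS : (ZMod M)ˣ → Module.End ℂ S) {K : Type} [Field K] (φ : Zb →+* K) (δ : (ZMod M)ˣ →* Kˣ)
    (c : ℕ → K) (h : S) (lam : K) : Prop :=
  ∀ (u : (ZMod M)ˣ) (n : ℕ), ∃ z : Zb, (z : ℂ) = co n (DS u h) ∧ φ z = lam * (δ u : K) * c n

/-- the formal Hecke relations of the mod `ℓ` eigenform `c` (eigenvalues `a r`, nebentypus `δ`). -/
def EigRel (M ℓ : ℕ) {K : Type} [Field K] (δ : (ZMod M)ˣ →* Kˣ) (c a : ℕ → K) : Prop :=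
  ∀ r : ℕ, Good M ℓ r → ∀ u : (ZMod M)ˣ, (u : ZMod M) = (r : ZMod M) → ∀ n : ℕ,
    c (r * n) + (r : K) * (δ u : K) * (if r ∣ n then c (n / r) else 0) = a r * c n

end Fermat.Agent.S48.RHO
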