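import Fermat.Agent.S48.RHO.SS
import Fermat.Agent.S29.FDMain
import Fermat.Agent.GES.Big

/-!
# S48 RHO, R2-Core : extraction of the semisimple two dimensional representation (twin of `S29.exists_rep`)

`Y` is a (possibly infinite dimensional) smooth `K[G_ℚ]`-module, `E ≠ 0` a stable subspace on which every Frobenius element at `r ∤ B` satisfies `X² - a_r X + χ(σ)`.

Sketch.  Pick `v ∈ E`, `v ≠ 0` (`Submodule.exists_mem_ne_zero_of_ne_bot`).  The orbit `O = {R σ v}` is finite (`Fermat.Agent.GES.big_orbit_finite R v L hL`).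
`E₀ := span K O ≤ E`: finite dimensional (`FiniteDimensional.span_of_finite`), stable (as `hρ` in `GES.ESBig.exists_esDatum`), nonzero.
`Y₀ := ↥E₀`, `R₀ σ := (R σ).restrict _` (a monoid hom, as `ρW` in `GES/Big.lean`).
Common level: choose levels `L x` for `x ∈ O` (`hsm`), `L₁` for `χ`; `Lt := (⨆ x : O, L x) ⊔ L₁` (`IntermediateField.finiteDimensional_iSup_of_finite`, `Finite O`,
`IntermediateField.finiteDimensional_sup`).  If `σ` fixes `Lt` then `R σ` fixes `O`, hence `E₀` (`Submodule.span_induction`), and `χ σ = 1`.  Hence: if `σ, τ` agree on `Lt` then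
`R σ = R τ` on `E₀` and `χ σ = χ τ` (apply this to `τ⁻¹ * σ`, as `hlevel` in `S29.exists_rep`).
`hq`: for `g : GQ`, `S29.frobenius_density_lite Lt B.primeFactors g` gives `r ∤ B`, `(A, σ)` Frobenius, `b` with `σ ^ b = g` on `Lt`; `S29.quad_pow_on (R σ) E₀ ..` (exactly as in
`S29.exists_rep`).
Then `exists_two_dim_ss R₀ ⊤ ..` (or with `Y₀`, `E = ⊤`).  Level of `ρ`: `Lt`.  Inertia: `hunr`.  Frobenius: `hfrob`.
-/

set_option autoImplicit false

namespace Fermat.Agent.S48.RHO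

theorem exists_rep_of_vector {K : Type} [Field K] [IsAlgClosed K] {Y : Type} [AddCommGroup Y]
    [Module K Y] (R : GQ →* Module.End K Y)
    (hsm : ∀ x : Y, ∃ L : IntermediateField ℚ Qb, FiniteDimensional ℚ L ∧
      ∀ σ : GQ, (∀ y ∈ L, σ y = y) → R σ x = x)
    (E : Submodule K Y) (hE0 : E ≠ ⊥) (hE : ∀ σ, ∀ x ∈ E, R σ x ∈ E)
    (χ : GQ →* Kˣ) (hχ : GaloisFactorsThroughFiniteLevel χ)
    (B : ℕ) (hB : B ≠ 0) (a : ℕ → K)
    (hfrob : ∀ r : ℕ, r.Prime → ¬ r ∣ B → ∀ A : ValuationSubring Qb, A.LiesOverPrime r →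
      ∀ σ : GQ, A.IsFrobeniusAt σ r → ∀ x ∈ E, R σ (R σ x) - a r • R σ x + (χ σ : K) • x = 0)
    (hunr : ∀ r : ℕ, r.Prime → ¬ r ∣ B → ∀ A : ValuationSubring Qb, A.LiesOverPrime r →
      ∀ σ ∈ A.inertiaSubgroupIn ℚ, (∀ x ∈ E, R σ x = x) ∧ χ σ = 1) :
    ∃ ρ : GQ →* GL (Fin 2) K, GaloisFactorsThroughFiniteLevel ρ ∧ IsSS ρ ∧
      ∀ r : ℕ, r.Prime → ¬ r ∣ B → ∀ A : ValuationSubring Qb, A.LiesOverPrime r →
        (∀ σ ∈ A.inertiaSubgroupIn ℚ, ρ σ = 1) ∧
        ∀ σ : GQ, A.IsFrobeniusAt σ r →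
          (ρ σ : Matrix (Fin 2) (Fin 2) K).trace = a r ∧
            (ρ σ : Matrix (Fin 2) (Fin 2) K).det = (χ σ : K) := by
  classical
  obtain ⟨v, hvE, hv0⟩ := Submodule.exists_mem_ne_zero_of_ne_bot hE0
  obtain ⟨Lv, hLv, hLvx⟩ := hsm v
  let O : Set Y := Set.range fun σ : GQ => R σ v
  have hOfin : O.Finite := Fermat.Agent.GES.big_orbit_finite R v Lv hLvx
  let E₀ : Submodule K Y := Submodule.span K O
  have hE₀E : E₀ ≤ E := Submodule.span_le.2 (by rintro _ ⟨σ, rfl⟩; exact hE σ v hvE)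
  have hvE₀ : v ∈ E₀ := Submodule.subset_span ⟨1, by simp⟩
  have hst : ∀ σ, ∀ x ∈ E₀, R σ x ∈ E₀ := by
    intro σ x hx
    have : E₀.map (R σ) ≤ E₀ := by
      rw [Submodule.map_span_le]
      rintro _ ⟨τ, rfl⟩
      exact Submodule.subset_span ⟨σ * τ, by simp [map_mul]⟩
    exact this ⟨x, hx, rfl⟩
  have hfd : FiniteDimensional K E₀ := FiniteDimensional.span_of_finite K hOfin
  let R₀ : GQ →* Module.End K E₀ :=
    { toFun := fun σ => (R σ).restrict (hst σ)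
      map_one' := by
        refine LinearMap.ext fun x => Subtype.ext ?_
        simp
      map_mul' := fun σ τ => by
        refine LinearMap.ext fun x => Subtype.ext ?_
        simp [map_mul] }
  have hR₀ : ∀ σ (x : E₀), ((R₀ σ x : E₀) : Y) = R σ x := fun σ x => rfl
  -- a common level
  choose L hL hLx using hsm
  obtain ⟨L₁, hL₁fin, hL₁⟩ := hχ
  have hOfin' : Finite O := hOfin.to_subtype
  let L₀ : IntermediateField ℚ Qb := ⨆ x : O, L x
  have hL₀fin : FiniteDimensional ℚ L₀ := by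
    have := fun x : O => hL x
    exact IntermediateField.finiteDimensional_iSup_of_finite
  have hLtfin : FiniteDimensional ℚ (L₀ ⊔ L₁ : IntermediateField ℚ Qb) :=
    IntermediateField.finiteDimensional_sup L₀ L₁
  have hfix : ∀ σ : GQ, (∀ y ∈ (L₀ ⊔ L₁ : IntermediateField ℚ Qb), σ y = y) →
      (∀ x ∈ E₀, R σ x = x) ∧ χ σ = 1 := by
    intro σ hσ
    constructor
    · intro x hx
      induction hx using Submodule.span_induction with
      | mem x hx =>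
        exact hLx x σ fun y hy => hσ y ((le_sup_left : L₀ ≤ L₀ ⊔ L₁)
          ((le_iSup (fun x : O => L x) ⟨x, hx⟩) hy))
      | zero => exact map_zero _
      | add x y _ _ hx hy => rw [map_add, hx, hy]
      | smul c x _ hx => rw [map_smul, hx]
    · exact hL₁ σ fun y hy => hσ y ((le_sup_right : L₁ ≤ L₀ ⊔ L₁) hy)
  have hlevel : ∀ σ τ : GQ, (∀ y ∈ (L₀ ⊔ L₁ : IntermediateField ℚ Qb), σ y = τ y) →
      (∀ x ∈ E₀, R σ x = R τ x) ∧ χ σ = χ τ := by
    intro σ τ hστ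
    have h1 : ∀ y ∈ (L₀ ⊔ L₁ : IntermediateField ℚ Qb), (τ⁻¹ * σ) y = y := by
      intro y hy
      rw [AlgEquiv.mul_apply, hστ y hy]
      exact τ.symm_apply_apply y
    obtain ⟨h2, h3⟩ := hfix _ h1
    have h4 : σ = τ * (τ⁻¹ * σ) := by group
    constructor
    · intro x hx
      rw [h4, map_mul, Module.End.mul_apply, h2 x hx]
    · rw [h4, map_mul, h3, mul_one]
  have hqY : ∀ g, ∃ a' : K, ∀ x ∈ E₀, R g (R g x) - a' • R g x + (χ g : K) • x = 0 := by
    intro g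
    obtain ⟨r, h1, h2, A, hA, σ, hσ, b, hb⟩ :=
      S29.frobenius_density_lite (L₀ ⊔ L₁) B.primeFactors g
    have h3 : ¬ r ∣ B := fun hd => h2 (Nat.mem_primeFactors.2 ⟨h1, hd, hB⟩)
    have hrel : ∀ x ∈ E₀, R σ (R σ x) - a r • R σ x + (χ σ : K) • x = 0 :=
      fun x hx => hfrob r h1 h3 A hA σ hσ x (hE₀E hx)
    obtain ⟨hRg, hχg⟩ := hlevel (σ ^ b) g hb
    obtain ⟨a', ha'⟩ := S29.quad_pow_on (R σ) E₀ (hst σ) hrel b
    refine ⟨a', fun x hx => ?_⟩
    rw [← hRg x hx, ← hRg _ (hst _ x hx), ← hχg, map_pow, map_pow, Units.val_pow_eq_pow_val]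
    exact ha' x hx
  have htop : (⊤ : Submodule K E₀) ≠ ⊥ := by
    intro h
    have h1 : (⟨v, hvE₀⟩ : E₀) ∈ (⊥ : Submodule K E₀) := h ▸ Submodule.mem_top
    rw [Submodule.mem_bot] at h1
    exact hv0 (congrArg Subtype.val h1)
  have htr : ∀ (g : GQ) (a' : K), (∀ x ∈ E₀, R g (R g x) - a' • R g x + (χ g : K) • x = 0) →
      ∀ x ∈ (⊤ : Submodule K E₀), R₀ g (R₀ g x) - a' • R₀ g x + (χ g : K) • x = 0 := by
    intro g a' h x _
    apply Subtype.ext
    simp only [Submodule.coe_add, Submodule.coe_sub, Submodule.coe_smul, hR₀, Submodule.coe_zero]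
    exact h x x.2
  obtain ⟨ρ', hss, h1, h2⟩ := exists_two_dim_ss R₀ ⊤ htop (fun _ _ _ => Submodule.mem_top) χ
    (fun g => by
      obtain ⟨a', ha'⟩ := hqY g
      exact ⟨a', htr g a' ha'⟩)
  have htriv : ∀ g : GQ, (∀ x ∈ E₀, R g x = x) → χ g = 1 → ρ' g = 1 := by
    intro g hg hχg
    exact h1 g (fun x _ => Subtype.ext (by rw [hR₀]; exact hg x x.2)) hχg
  refine ⟨ρ', ⟨L₀ ⊔ L₁, hLtfin, fun σ hσ => ?_⟩, hss, fun r hr hrB A hA => ⟨fun σ hσ => ?_,
    fun σ hσ => ?_⟩⟩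
  · obtain ⟨h3, h4⟩ := hfix σ hσ
    exact htriv σ h3 h4
  · obtain ⟨h3, h4⟩ := hunr r hr hrB A hA σ hσ
    exact htriv σ (fun x hx => h3 x (hE₀E hx)) h4
  · exact h2 σ (a r) (htr σ (a r) fun x hx => hfrob r hr hrB A hA σ hσ x (hE₀E hx))

end Fermat.Agent.S48.RHO
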