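import Fermat.Agent.S48.RHO.Defs

/-!
# S48 RHO, R4-Eig : existence of eigenvectors modulo `ℓ` for integral matrices which commute only modulo `ℓ`

`A i` (`i : ι`) integral matrices, commuting modulo `ℓ`; `a : ι → K`, `char K = ℓ`, such that every noncommutative polynomial relation between the `A i` (over `ℤ`, in characteristic `0`) is satisfied by the
`a i`.  Then the `a i` are the eigenvalues of a common eigenvector in `K ^ r`.

Sketch.
* `lift_eq_zero_of_map_eq_zero` (Cayley-Hamilton trick).  `B := lift A P`, `B ≡ 0 mod ℓ`.  `χ := B.charpoly : ℤ[X]`.  `Q := Polynomial.aeval P χ : FreeAlgebra ℤ ι`;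
  `lift A Q = aeval B χ = 0` (`Polynomial.aeval_algHom_apply`, `Matrix.aeval_self_charpoly`), so `0 = lift a Q = aeval (lift a P) χ`.  Now
  `χ.map (Int.castRingHom (ZMod ℓ)) = (B.map _).charpoly = (0 : Matrix ..).charpoly = X ^ r` (`Matrix.charpoly_map`, `Matrix.charpoly_zero`, `Fintype.card_fin`), hence
  `χ.map (Int.castRingHom K) = X ^ r` (factor `Int.castRingHom K = (ZMod.castHom (dvd_refl ℓ) K).comp (Int.castRingHom (ZMod ℓ))`, `RingHom.ext_int`/`Subsingleton.elim`, `Polynomial.map_map`), and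
  `aeval x χ = eval x (χ.map (Int.castRingHom K)) = x ^ r` (`Polynomial.aeval_def`, `Polynomial.eval₂_eq_eval_map`, `algebraMap_int_eq`).  `pow_eq_zero_iff`/`pow_eq_zero`.
* `exists_dual_gen`: COPY `S30.eigen_exists_eval`, `S30.eigen_lift_X_surjective`, `S30.eigen_exists_dual` (`S30/Eigen.lean`, lines 76-146) replacing the index type `ℕ` by `ι`
  (`S30.eigen_exists_functional` is index free and can be cited).
* `exists_eigenvector_mod`: as `S30.exists_eigenvector` (copy also `eigen_lift_star_comm`, `eigen_lift_transpose` for `ι`), with `M := Fin r → ZMod ℓ` (a finite `ℤ`-module) and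
  `t i := ((Matrix.toLin' ((A i).map (Int.castRingHom (ZMod ℓ))).transpose).restrictScalars ℤ`: they commute by `hA`; `lift t P = 0` means that `(lift A (star P))ᵀ ≡ 0 mod ℓ`, so
  `lift a (star P) = 0` by the first lemma, so `lift a P = 0`.  From `f : M →+ K` put `v j := f (Pi.single j 1)`; `v ≠ 0` because the `Pi.single j 1` generate `M` as a group; the eigenvector equation
  is `f (t i (Pi.single j 1)) = a i * f (Pi.single j 1)` expanded (`f` is additive, hence commutes with the integer/`ZMod ℓ` coefficients: `map_zsmul`, every element of `ZMod ℓ` is an integer cast).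
-/

set_option autoImplicit false

namespace Fermat.Agent.S48.RHO

open Polynomial in
theorem lift_eq_zero_of_map_eq_zero {ι : Type*} {r ℓ : ℕ} [Fact ℓ.Prime]
    (A : ι → Matrix (Fin r) (Fin r) ℤ) {K : Type*} [Field K] [CharP K ℓ] (a : ι → K)
    (h : ∀ P : FreeAlgebra ℤ ι, FreeAlgebra.lift ℤ A P = 0 → FreeAlgebra.lift ℤ a P = 0)
    (P : FreeAlgebra ℤ ι)
    (hP : (FreeAlgebra.lift ℤ A P).map (Int.castRingHom (ZMod ℓ)) = 0) :
    FreeAlgebra.lift ℤ a P = 0 := by
  set B := FreeAlgebra.lift ℤ A P with hB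
  set χ := B.charpoly with hχ
  have h1 : FreeAlgebra.lift ℤ A (Polynomial.aeval P χ) = 0 := by
    rw [← Polynomial.aeval_algHom_apply, ← hB, hχ, Matrix.aeval_self_charpoly]
  have h2 := h _ h1
  rw [← Polynomial.aeval_algHom_apply] at h2
  have h3 : χ.map (Int.castRingHom (ZMod ℓ)) = X ^ r := by
    rw [hχ, ← Matrix.charpoly_map, hP, Matrix.charpoly_zero, Fintype.card_fin]
  have h4 : χ.map (Int.castRingHom K) = X ^ r := by
    have : Int.castRingHom K = (ZMod.castHom (dvd_refl ℓ) K).comp (Int.castRingHom (ZMod ℓ)) :=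
      RingHom.ext_int _ _
    rw [this, ← Polynomial.map_map, h3, Polynomial.map_pow, Polynomial.map_X]
  rw [Polynomial.aeval_def, Polynomial.eval₂_eq_eval_map, algebraMap_int_eq, h4, eval_pow,
    eval_X] at h2
  exact eq_zero_of_pow_eq_zero h2

namespace Eig

open scoped IsMulCommutative in
/-- evaluation of commutative polynomials at commuting elements of a ring. -/
theorem exists_eval {ι : Type*} {A : Type*} [Ring A] (t : ι → A)
    (ht : ∀ i j, t i * t j = t j * t i) :
    ∃ ψ : MvPolynomial ι ℤ →+* A, ∀ P : FreeAlgebra ℤ ι,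
      ψ (FreeAlgebra.lift ℤ (MvPolynomial.X : ι → MvPolynomial ι ℤ) P) =
        FreeAlgebra.lift ℤ t P := by
  have hcomm : IsMulCommutative (Algebra.adjoin ℤ (Set.range t)) :=
    Algebra.isMulCommutative_adjoin ℤ (by
      rintro _ ⟨i, rfl⟩ _ ⟨j, rfl⟩
      exact ht i j)
  let ψ₀ : MvPolynomial ι ℤ →ₐ[ℤ] Algebra.adjoin ℤ (Set.range t) :=
    MvPolynomial.aeval fun i => ⟨t i, Algebra.subset_adjoin (Set.mem_range_self i)⟩
  let ψ₁ : MvPolynomial ι ℤ →ₐ[ℤ] A := (Algebra.adjoin ℤ (Set.range t)).val.comp ψ₀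
  refine ⟨ψ₁.toRingHom, fun P => ?_⟩
  have : ψ₁.comp (FreeAlgebra.lift ℤ (MvPolynomial.X : ι → MvPolynomial ι ℤ)) =
      FreeAlgebra.lift ℤ t := by
    apply FreeAlgebra.hom_ext
    funext i
    simp [ψ₁, ψ₀]
  exact DFunLike.congr_fun this P

theorem lift_X_surjective {ι : Type*} :
    Function.Surjective (FreeAlgebra.lift ℤ (MvPolynomial.X : ι → MvPolynomial ι ℤ)) := by
  intro x
  induction x using MvPolynomial.induction_on with
  | C a => exact ⟨algebraMap ℤ _ a, by simp⟩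
  | add p q hp hq =>
    obtain ⟨P, rfl⟩ := hp
    obtain ⟨Q, rfl⟩ := hq
    exact ⟨P + Q, map_add _ _ _⟩
  | mul_X p i hp =>
    obtain ⟨P, rfl⟩ := hp
    exact ⟨P * FreeAlgebra.ι ℤ i, by simp⟩

theorem lift_star_comm {ι : Type*} {K : Type*} [CommRing K] (a : ι → K) (P : FreeAlgebra ℤ ι) :
    FreeAlgebra.lift ℤ a (star P) = FreeAlgebra.lift ℤ a P := by
  induction P using FreeAlgebra.induction with
  | grade0 r => rw [FreeAlgebra.star_algebraMap]
  | grade1 x => rw [FreeAlgebra.star_ι]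
  | mul x y hx hy => rw [star_mul, map_mul, map_mul, hx, hy, mul_comm]
  | add x y hx hy => rw [star_add, map_add, map_add, hx, hy]

/-- `m ↦ m ᵥ* (X mod ℓ)`. -/
noncomputable def tau (ℓ : ℕ) {r : ℕ} (X : Matrix (Fin r) (Fin r) ℤ) :
    Module.End ℤ (Fin r → ZMod ℓ) :=
  (Matrix.vecMulLinear (X.map (Int.castRingHom (ZMod ℓ)))).restrictScalars ℤ

theorem tau_apply (ℓ : ℕ) {r : ℕ} (X : Matrix (Fin r) (Fin r) ℤ) (m : Fin r → ZMod ℓ) :
    tau ℓ X m = Matrix.vecMul m (X.map (Int.castRingHom (ZMod ℓ))) := rfl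

theorem tau_mul (ℓ : ℕ) {r : ℕ} (X Y : Matrix (Fin r) (Fin r) ℤ) :
    tau ℓ X * tau ℓ Y = tau ℓ (Y * X) := by
  refine LinearMap.ext fun m => ?_
  rw [Module.End.mul_apply, tau_apply, tau_apply, tau_apply, Matrix.vecMul_vecMul, Matrix.map_mul]

theorem tau_eq_zero (ℓ : ℕ) {r : ℕ} (X : Matrix (Fin r) (Fin r) ℤ) (h : tau ℓ X = 0) :
    X.map (Int.castRingHom (ZMod ℓ)) = 0 := by
  ext i j
  have h1 := congrFun (congrArg (fun f : Module.End ℤ (Fin r → ZMod ℓ) => f (Pi.single i 1)) h) j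
  simp only [tau_apply, Matrix.single_one_vecMul, LinearMap.zero_apply, Pi.zero_apply] at h1
  exact h1

theorem lift_tau (ℓ : ℕ) {ι : Type*} {r : ℕ} (A : ι → Matrix (Fin r) (Fin r) ℤ)
    (P : FreeAlgebra ℤ ι) :
    FreeAlgebra.lift ℤ (fun i => tau ℓ (A i)) P = tau ℓ (FreeAlgebra.lift ℤ A (star P)) := by
  induction P using FreeAlgebra.induction with
  | grade0 n =>
    rw [FreeAlgebra.star_algebraMap, AlgHom.commutes, AlgHom.commutes]
    refine LinearMap.ext fun m => ?_
    rw [tau_apply, Module.algebraMap_end_apply, Algebra.algebraMap_eq_smul_one]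
    have e : ((n • (1 : Matrix (Fin r) (Fin r) ℤ))).map (Int.castRingHom (ZMod ℓ)) =
        (n : ZMod ℓ) • 1 := by
      ext i j
      rw [Matrix.map_apply, Matrix.smul_apply, Matrix.smul_apply, Matrix.one_apply,
        Matrix.one_apply]
      split_ifs <;> simp
    rw [e, Matrix.vecMul_smul, Matrix.vecMul_one, Int.cast_smul_eq_zsmul]
  | grade1 x => rw [FreeAlgebra.star_ι, FreeAlgebra.lift_ι_apply, FreeAlgebra.lift_ι_apply]
  | mul x y hx hy => rw [star_mul, map_mul, map_mul, hx, hy, tau_mul]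
  | add x y hx hy =>
    rw [star_add, map_add, map_add, hx, hy]
    refine LinearMap.ext fun m => ?_
    simp only [LinearMap.add_apply, tau_apply, Matrix.map_add _ (fun a b => map_add _ a b),
      Matrix.vecMul_add]

end Eig

open Eig in
theorem exists_dual_gen {ι : Type*} {M : Type*} [AddCommGroup M] [Module.Finite ℤ M]
    (t : ι → Module.End ℤ M) (ht : ∀ i j, t i * t j = t j * t i) {K : Type*} [Field K] (a : ι → K)
    (h : ∀ P : FreeAlgebra ℤ ι, FreeAlgebra.lift ℤ t P = 0 → FreeAlgebra.lift ℤ a P = 0) :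
    ∃ f : M →+ K, f ≠ 0 ∧ ∀ (i : ι) (m : M), f (t i m) = a i * f m := by
  obtain ⟨ψ, hψ⟩ := exists_eval t ht
  let _ : Module (MvPolynomial ι ℤ) M := Module.compHom M ψ
  have hsmul : ∀ (x : MvPolynomial ι ℤ) (m : M), x • m = ψ x m := fun _ _ => rfl
  have hfin : Module.Finite (MvPolynomial ι ℤ) M :=
    Module.Finite.of_restrictScalars_finite ℤ (MvPolynomial ι ℤ) M
  let φ : MvPolynomial ι ℤ →ₐ[ℤ] K := MvPolynomial.aeval a
  have hφ : ∀ P : FreeAlgebra ℤ ι,
      φ (FreeAlgebra.lift ℤ (MvPolynomial.X : ι → MvPolynomial ι ℤ) P) =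
        FreeAlgebra.lift ℤ a P := by
    intro P
    have : φ.comp (FreeAlgebra.lift ℤ (MvPolynomial.X : ι → MvPolynomial ι ℤ)) =
        FreeAlgebra.lift ℤ a := by
      apply FreeAlgebra.hom_ext
      funext i
      simp [φ]
    exact DFunLike.congr_fun this P
  obtain ⟨f, hf0, hf⟩ := Fermat.Agent.S30.eigen_exists_functional (M := M) φ.toRingHom (by
    intro x hx
    obtain ⟨P, rfl⟩ := lift_X_surjective x
    have h1 : FreeAlgebra.lift ℤ t P = 0 := by
      rw [← hψ]
      ext m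
      exact hx m
    exact (hφ P).trans (h P h1))
  refine ⟨f, hf0, fun i m => ?_⟩
  have h1 := hf (MvPolynomial.X i) m
  have h2 : ψ (MvPolynomial.X i) = t i := by
    have := hψ (FreeAlgebra.ι ℤ i)
    rwa [FreeAlgebra.lift_ι_apply, FreeAlgebra.lift_ι_apply] at this
  rw [hsmul, h2] at h1
  rw [h1]
  congr 1
  exact MvPolynomial.aeval_X a i

open Eig in
theorem exists_eigenvector_mod {ι : Type*} {r ℓ : ℕ} [Fact ℓ.Prime]
    (A : ι → Matrix (Fin r) (Fin r) ℤ)
    (hA : ∀ i j, (A i * A j).map (Int.castRingHom (ZMod ℓ)) =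
      (A j * A i).map (Int.castRingHom (ZMod ℓ)))
    {K : Type} [Field K] [CharP K ℓ] (a : ι → K)
    (h : ∀ P : FreeAlgebra ℤ ι, FreeAlgebra.lift ℤ A P = 0 → FreeAlgebra.lift ℤ a P = 0) :
    ∃ v : Fin r → K, v ≠ 0 ∧ ∀ i, ((A i).map (Int.castRingHom K)).mulVec v = a i • v := by
  have hfinite : Module.Finite ℤ (Fin r → ZMod ℓ) := by
    have : NeZero ℓ := ⟨(Fact.out : ℓ.Prime).ne_zero⟩
    exact Module.Finite.of_finite
  obtain ⟨f, hf0, hf⟩ := exists_dual_gen (M := Fin r → ZMod ℓ) (fun i => tau ℓ (A i)) (by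
      intro i j
      rw [tau_mul, tau_mul]
      refine LinearMap.ext fun m => ?_
      rw [tau_apply, tau_apply, hA]) a (by
      intro P hP
      rw [lift_tau] at hP
      rw [← lift_star_comm]
      exact lift_eq_zero_of_map_eq_zero A a h _ (tau_eq_zero ℓ _ hP))
  have hsum : ∀ c : Fin r → ℤ, f (fun k => ((c k : ℤ) : ZMod ℓ)) =
      ∑ k, (c k : K) * f (Pi.single k 1) := by
    intro c
    have : (fun k => ((c k : ℤ) : ZMod ℓ)) = ∑ k, c k • (Pi.single k (1 : ZMod ℓ) : Fin r → ZMod ℓ) := by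
      ext j
      simp [Finset.sum_apply, Pi.single_apply]
    rw [this, map_sum]
    refine Finset.sum_congr rfl fun i _ => ?_
    rw [map_zsmul, zsmul_eq_mul]
  refine ⟨fun i => f (Pi.single i 1), ?_, fun i => ?_⟩
  · intro h0
    apply hf0
    refine DFunLike.ext _ _ fun m => ?_
    have hm : m = fun k => (((m k).val : ℤ) : ZMod ℓ) := by
      ext k
      have : NeZero ℓ := ⟨(Fact.out : ℓ.Prime).ne_zero⟩
      simp
    rw [hm, hsum, AddMonoidHom.zero_apply]
    refine Finset.sum_eq_zero fun i _ => ?_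
    rw [congrFun h0 i, Pi.zero_apply, mul_zero]
  · funext j
    have h1 := hf i (Pi.single j 1)
    have h2 : tau ℓ (A i) (Pi.single j 1) = fun k => ((A i j k : ℤ) : ZMod ℓ) := by
      rw [tau_apply, Matrix.single_one_vecMul]
      rfl
    rw [h2, hsum] at h1
    rw [Pi.smul_apply, smul_eq_mul, ← h1, Matrix.mulVec, dotProduct]
    refine Finset.sum_congr rfl fun k _ => ?_
    simp

end Fermat.Agent.S48.RHO
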