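import Fermat.Agent.S48.RHO.Defs
import Fermat.Agent.S29.Minimal

/-!
# S48 RHO, R1-SS : twins of `S29.quad_rep` and `S29.exists_two_dim` with values in `GL (Fin 2) K`, with semisimplicity

Sketch.  COPY the proofs of `S29.Quad.scalar_case`, `S29.quad_rep` (`S29/Quad.lean`) and `S29.exists_two_dim` (`S29/Minimal.lean`); all the auxiliary lemmas of the namespace
`S29.Quad` (`finrank_le_two`, `cayley_two`, `eq_of_two_quad`, `scalar_of_finrank_one`, `smul_one_injective`, `isUnit_rho`, `charpoly_toLin'`) can be CITED.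
* scalar case (`ρ g = ψ g • 1`): `ρ' g = diag (ψ g, χ g / ψ g)` as an element of `GL` (e.g. `Matrix.GeneralLinearGroup.mkOfDetNeZero`, or build a hom `G →* (Fin 2 → K)ˣ`/use
  `Units.map (Matrix.diagonalRingHom ..)` on `MonoidHom.toHomUnits`).  `IsSS`: `e₀ = ![1,0]` and `e₁ = ![0,1]` are eigenvectors of every `ρ' g`.  Given a stable `v ≠ 0`: if `v 1 = 0` take `w = e₁`,
  otherwise take `w = e₀`; linear independence of `![v, w]`: `LinearIndependent.pair_iff`.
  trace and determinant: from `ψ² - a ψ + χ = 0`, as in `scalar_case`.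
* otherwise `finrank K W = 2`, `e : W ≃ₗ[K] (Fin 2 → K)`, `ρ' g = LinearMap.toMatrix' (e.conj (ρ g))` (a unit; `MonoidHom.toHomUnits` of the monoid hom
  `G →* Matrix (Fin 2) (Fin 2) K`, `Matrix.GeneralLinearGroup` is `(Matrix ..)ˣ` by definition).  `IsSS` holds because there is NO stable line: if `ρ' g *ᵥ v = c_g • v` for all `g` then
  `U = K ∙ e.symm v` is `ρ`-stable, `≠ ⊥`, and `≠ ⊤` (`finrank_span_singleton`, `finrank_top`), contradicting `hirr`.
  trace/det: `S29.quad_rep`'s argument gives `charpoly = X² - a X + χ g`; compare with `Matrix.charpoly_fin_two` (coefficients: `Polynomial.coeff`), or redo it with `cayley_two`.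
* `exists_two_dim_ss`: the minimal stable subspace `U ≤ E`, exactly as in `S29.exists_two_dim`.
-/

set_option autoImplicit false

namespace Fermat.Agent.S48.RHO

namespace SS

variable {K : Type} [Field K]

theorem cayley2 (X : Matrix (Fin 2) (Fin 2) K) : X * X - X.trace • X + X.det • 1 = 0 := by
  ext i j
  fin_cases i <;> fin_cases j <;>
    simp [Matrix.mul_apply, Fin.sum_univ_two, Matrix.trace_fin_two, Matrix.det_fin_two] <;> ring

theorem smul_one_inj {c c' : K} (h : c • (1 : Matrix (Fin 2) (Fin 2) K) = c' • 1) : c = c' := by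
  have := congrFun (congrFun h 0) 0
  simpa using this

theorem eq_of_not_scalar {X : Matrix (Fin 2) (Fin 2) K} (hX : ¬ ∃ c : K, X = c • 1) {a c : K}
    (h : X * X - a • X + c • 1 = 0) : X.trace = a ∧ X.det = c := by
  have h2 := cayley2 X
  have h3 : (X.trace - a) • X = (X.det - c) • 1 := by
    have : (X.trace - a) • X - (X.det - c) • 1 =
        (X * X - a • X + c • 1) - (X * X - X.trace • X + X.det • 1) := by module
    rw [← sub_eq_zero, this, h, h2, sub_zero]
  by_cases hta : X.trace = a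
  · refine ⟨hta, ?_⟩
    rw [hta, sub_self, zero_smul] at h3
    have h4 : (X.det - c) • (1 : Matrix (Fin 2) (Fin 2) K) = (0 : K) • 1 := by rw [← h3, zero_smul]
    exact sub_eq_zero.1 (smul_one_inj h4)
  · exfalso
    apply hX
    refine ⟨(X.trace - a)⁻¹ * (X.det - c), ?_⟩
    rw [mul_smul, ← h3, smul_smul, inv_mul_cancel₀ (sub_ne_zero.2 hta), one_smul]

/-- a diagonal representation is semisimple. -/
theorem isSS_of_diagonal {G : Type*} [Group G] (ρ' : G →* GL (Fin 2) K) (d : G → Fin 2 → K)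
    (h : ∀ g, (ρ' g : Matrix (Fin 2) (Fin 2) K) = Matrix.diagonal (d g)) : IsSS ρ' := by
  intro v hv _
  have he0 : ∀ g : G, ∃ c : K, (ρ' g : Matrix (Fin 2) (Fin 2) K).mulVec ![1, 0] = c • ![1, 0] := by
    intro g
    refine ⟨d g 0, ?_⟩
    rw [h]
    ext i
    fin_cases i <;> simp [Matrix.mulVec_diagonal]
  have he1 : ∀ g : G, ∃ c : K, (ρ' g : Matrix (Fin 2) (Fin 2) K).mulVec ![0, 1] = c • ![0, 1] := by
    intro g
    refine ⟨d g 1, ?_⟩
    rw [h]
    ext i
    fin_cases i <;> simp [Matrix.mulVec_diagonal]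
  by_cases h1 : v 1 = 0
  · have h0 : v 0 ≠ 0 := by
      intro h0
      apply hv
      ext i
      fin_cases i
      · exact h0
      · exact h1
    refine ⟨![0, 1], ?_, he1⟩
    rw [LinearIndependent.pair_iff]
    intro s t hst
    have e0 := congrFun hst 0
    have e1 := congrFun hst 1
    simp at e0 e1
    have hs : s = 0 := by
      rcases e0 with h | h
      · exact h
      · exact absurd h h0
    refine ⟨hs, ?_⟩
    rw [hs] at e1
    simpa using e1
  · refine ⟨![1, 0], ?_, he0⟩
    rw [LinearIndependent.pair_iff]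
    intro s t hst
    have e0 := congrFun hst 0
    have e1 := congrFun hst 1
    simp at e0 e1
    have hs : s = 0 := by
      rcases e1 with h | h
      · exact h
      · exact absurd h h1
    refine ⟨hs, ?_⟩
    rw [hs] at e0
    simpa using e0

open Fermat.Agent.S29.Quad in
/-- the case where all `ρ g` are scalars. -/
theorem scalar_case_ss {G : Type*} [Group G] {W : Type} [AddCommGroup W] [Module K W]
    [Nontrivial W] (ρ : G →* Module.End K W) (χ : G →* Kˣ) (hs : ∀ g, ∃ c : K, ρ g = c • 1) :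
    ∃ ρ' : G →* GL (Fin 2) K, IsSS ρ' ∧
      (∀ g, ρ g = 1 → χ g = 1 → ρ' g = 1) ∧
      ∀ (g : G) (a : K), ρ g * ρ g - a • ρ g + (χ g : K) • 1 = 0 →
        (ρ' g : Matrix (Fin 2) (Fin 2) K).trace = a ∧
          (ρ' g : Matrix (Fin 2) (Fin 2) K).det = (χ g : K) := by
  choose ψ hψ using hs
  have hψ1 : ψ 1 = 1 := by
    apply smul_one_injective (W := W)
    rw [← hψ, map_one, one_smul]
  have hψmul : ∀ g h, ψ (g * h) = ψ g * ψ h := by
    intro g h
    apply smul_one_injective (W := W)
    rw [← hψ, map_mul, hψ g, hψ h, smul_mul_smul_comm, one_mul]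
  have hψ0 : ∀ g, ψ g ≠ 0 := by
    intro g h0
    have := hψmul g g⁻¹
    rw [mul_inv_cancel, hψ1, h0, zero_mul] at this
    exact one_ne_zero this
  let d : G →* (Fin 2 → K) :=
    { toFun := fun g => ![ψ g, (χ g : K) * (ψ g)⁻¹]
      map_one' := by
        ext i
        fin_cases i <;> simp [hψ1]
      map_mul' := by
        intro g h
        ext i
        fin_cases i
        · simp [hψmul]
        · simp only [hψmul, map_mul, Units.val_mul, mul_inv]
          simp
          ring }
  let m : G →* Matrix (Fin 2) (Fin 2) K := (Matrix.diagonalRingHom (Fin 2) K).toMonoidHom.comp d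
  have hm : ∀ g, m g = Matrix.diagonal ![ψ g, (χ g : K) * (ψ g)⁻¹] := fun g => rfl
  let ρ' : G →* GL (Fin 2) K := m.toHomUnits
  have hρ' : ∀ g, (ρ' g : Matrix (Fin 2) (Fin 2) K) = Matrix.diagonal ![ψ g, (χ g : K) * (ψ g)⁻¹] :=
    fun g => rfl
  refine ⟨ρ', isSS_of_diagonal ρ' _ hρ', ?_, ?_⟩
  · intro g h1 h2
    have h3 : ψ g = 1 := by
      apply smul_one_injective (W := W)
      rw [← hψ, h1, one_smul]
    apply Units.ext
    rw [hρ', h3, h2]
    ext i j
    fin_cases i <;> fin_cases j <;> simp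
  · intro g a ha
    rw [hρ']
    rw [hψ g] at ha
    have h1 : (ψ g * ψ g - a * ψ g + (χ g : K)) • (1 : Module.End K W) = (0 : K) • 1 := by
      rw [zero_smul, ← ha, smul_mul_smul_comm, one_mul, smul_smul, add_smul, sub_smul]
    have h2 := smul_one_injective h1
    have h3 : a = ψ g + (χ g : K) * (ψ g)⁻¹ := by
      field_simp [hψ0 g]
      linear_combination -h2
    constructor
    · rw [h3]
      simp
    · simp
      field_simp [hψ0 g]

end SS

open SS Fermat.Agent.S29.Quad in
theorem quad_rep_ss {K : Type} [Field K] [IsAlgClosed K] {G : Type*} [Group G] {W : Type}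
    [AddCommGroup W] [Module K W] [FiniteDimensional K W] [Nontrivial W]
    (ρ : G →* Module.End K W)
    (hirr : ∀ U : Submodule K W, (∀ g, ∀ x ∈ U, ρ g x ∈ U) → U = ⊥ ∨ U = ⊤)
    (χ : G →* Kˣ)
    (hq : ∀ g, ∃ a : K, ρ g * ρ g - a • ρ g + (χ g : K) • 1 = 0) :
    ∃ ρ' : G →* GL (Fin 2) K, IsSS ρ' ∧
      (∀ g, ρ g = 1 → χ g = 1 → ρ' g = 1) ∧
      ∀ (g : G) (a : K), ρ g * ρ g - a • ρ g + (χ g : K) • 1 = 0 →
        (ρ' g : Matrix (Fin 2) (Fin 2) K).trace = a ∧
          (ρ' g : Matrix (Fin 2) (Fin 2) K).det = (χ g : K) := by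
  by_cases hs : ∀ g, ∃ c : K, ρ g = c • 1
  · exact scalar_case_ss ρ χ hs
  push Not at hs
  obtain ⟨g₀, hg₀⟩ := hs
  have hg₀' : ¬ ∃ c : K, ρ g₀ = c • 1 := by
    rintro ⟨c, hc⟩
    exact hg₀ c hc
  have h2 : Module.finrank K W = 2 := by
    have h1 := finrank_le_two ρ χ hirr hq g₀ hg₀'
    have h3 : 0 < Module.finrank K W := Module.finrank_pos
    have h4 : Module.finrank K W ≠ 1 := fun h => hg₀' (scalar_of_finrank_one h _)
    omega
  let b := Module.finBasisOfFinrankEq K W h2
  let Φ : Module.End K W ≃ₐ[K] Matrix (Fin 2) (Fin 2) K := LinearMap.toMatrixAlgEquiv b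
  let m : G →* Matrix (Fin 2) (Fin 2) K := (Φ : Module.End K W →* Matrix (Fin 2) (Fin 2) K).comp ρ
  have hm : ∀ g, m g = Φ (ρ g) := fun g => rfl
  have hsc : ∀ g (c : K), m g = c • 1 → ρ g = c • 1 := by
    intro g c h
    apply Φ.injective
    rw [← hm, h, map_smul, map_one]
  have hrel : ∀ g (a : K), ρ g * ρ g - a • ρ g + (χ g : K) • 1 = 0 →
      m g * m g - a • m g + (χ g : K) • 1 = 0 := by
    intro g a h
    have := congrArg Φ h
    rw [map_add, map_sub, map_mul, map_smul, map_smul, map_one, map_zero] at this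
    exact this
  have hunit : ∀ g, IsUnit (m g) := fun g => (Group.isUnit g).map m
  have hdet_ns : ∀ g, (¬ ∃ c : K, m g = c • 1) → (m g).det = (χ g : K) := by
    intro g hg
    obtain ⟨a, ha⟩ := hq g
    exact (eq_of_not_scalar hg (hrel g a ha)).2
  have hm₀ : ¬ ∃ c : K, m g₀ = c • 1 := by
    rintro ⟨c, hc⟩
    exact hg₀ c (hsc g₀ c hc)
  have hdet : ∀ g, (m g).det = (χ g : K) := by
    intro g
    by_cases hg : ∃ c : K, m g = c • 1
    · obtain ⟨c, hc⟩ := hg
      have hc0 : c ≠ 0 := by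
        rintro rfl
        have := hunit g
        rw [hc, zero_smul] at this
        exact not_isUnit_zero this
      have h3 : ¬ ∃ c' : K, m (g * g₀) = c' • 1 := by
        rintro ⟨c', hc'⟩
        apply hm₀
        refine ⟨c⁻¹ * c', ?_⟩
        rw [map_mul, hc, smul_mul_assoc, one_mul] at hc'
        rw [mul_smul, ← hc', smul_smul, inv_mul_cancel₀ hc0, one_smul]
      have h4 := hdet_ns _ h3
      rw [map_mul, Matrix.det_mul, map_mul, Units.val_mul, hdet_ns g₀ hm₀] at h4
      exact mul_right_cancel₀ (Units.ne_zero _) h4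
    · exact hdet_ns g hg
  let ρ' : G →* GL (Fin 2) K := m.toHomUnits
  have hρ' : ∀ g, (ρ' g : Matrix (Fin 2) (Fin 2) K) = m g := fun g => rfl
  refine ⟨ρ', ?_, ?_, ?_⟩
  · -- there is no stable line
    intro v hv hst
    exfalso
    set x : W := b.equivFun.symm v with hx
    have hxv : ∀ i, b.repr x i = v i := by
      intro i
      have : b.equivFun x = v := by rw [hx, LinearEquiv.apply_symm_apply]
      rw [← this]
      rfl
    have hx0 : x ≠ 0 := by
      intro h0
      apply hv
      have : b.equivFun x = v := by rw [hx, LinearEquiv.apply_symm_apply]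
      rw [← this, h0, map_zero]
    have hstab : ∀ g, ∃ c : K, ρ g x = c • x := by
      intro g
      obtain ⟨c, hc⟩ := hst g
      refine ⟨c, ?_⟩
      apply b.equivFun.injective
      rw [map_smul]
      have e1 : b.equivFun x = v := by rw [hx, LinearEquiv.apply_symm_apply]
      rw [e1, ← hc, hρ', hm]
      have e2 := LinearMap.toMatrix_mulVec_repr b b (ρ g) x
      have e3 : (⇑(b.repr x) : Fin 2 → K) = v := funext hxv
      rw [e3] at e2
      exact e2.symm
    have hU : ∀ g, ∀ y ∈ (K ∙ x), ρ g y ∈ (K ∙ x) := by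
      intro g y hy
      obtain ⟨t, rfl⟩ := Submodule.mem_span_singleton.1 hy
      obtain ⟨c, hc⟩ := hstab g
      rw [map_smul, hc]
      exact Submodule.smul_mem _ _ (Submodule.smul_mem _ _ (Submodule.mem_span_singleton_self x))
    rcases hirr _ hU with h | h
    · exact hx0 ((Submodule.span_singleton_eq_bot).1 h)
    · have h5 := finrank_span_singleton (K := K) hx0
      rw [h, finrank_top, h2] at h5
      omega
  · intro g h1 _
    apply Units.ext
    rw [hρ', hm, h1, map_one]
    rfl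
  · intro g a ha
    rw [hρ']
    refine ⟨?_, hdet g⟩
    have h3 := hrel g a ha
    have h4 := cayley2 (m g)
    rw [hdet] at h4
    have h5 : ((m g).trace - a) • m g = 0 := by
      have : ((m g).trace - a) • m g = (m g * m g - a • m g + (χ g : K) • 1)
          - (m g * m g - (m g).trace • m g + (χ g : K) • 1) := by module
      rw [this, h3, h4, sub_zero]
    by_contra hne
    have h6 : m g = 0 := by
      have := congrArg (fun y => ((m g).trace - a)⁻¹ • y) h5
      simpa [smul_smul, inv_mul_cancel₀ (sub_ne_zero.2 hne)] using this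
    have := hunit g
    rw [h6] at this
    exact not_isUnit_zero this

theorem exists_two_dim_ss {K : Type} [Field K] [IsAlgClosed K] {G : Type*} [Group G] {Y : Type}
    [AddCommGroup Y] [Module K Y] [FiniteDimensional K Y] (R : G →* Module.End K Y)
    (E : Submodule K Y) (hE0 : E ≠ ⊥) (hE : ∀ g, ∀ x ∈ E, R g x ∈ E) (χ : G →* Kˣ)
    (hq : ∀ g, ∃ a : K, ∀ x ∈ E, R g (R g x) - a • R g x + (χ g : K) • x = 0) :
    ∃ ρ' : G →* GL (Fin 2) K, IsSS ρ' ∧
      (∀ g, (∀ x ∈ E, R g x = x) → χ g = 1 → ρ' g = 1) ∧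
      ∀ (g : G) (a : K), (∀ x ∈ E, R g (R g x) - a • R g x + (χ g : K) • x = 0) →
        (ρ' g : Matrix (Fin 2) (Fin 2) K).trace = a ∧
          (ρ' g : Matrix (Fin 2) (Fin 2) K).det = (χ g : K) := by
  classical
  -- a stable nonzero subspace of minimal dimension
  let P : ℕ → Prop := fun n => ∃ U : Submodule K Y, U ≤ E ∧ U ≠ ⊥ ∧ (∀ g, ∀ x ∈ U, R g x ∈ U) ∧
    Module.finrank K U = n
  have hP : ∃ n, P n := ⟨_, E, le_rfl, hE0, hE, rfl⟩
  obtain ⟨U, hUE, hU0, hU, hUn⟩ := Nat.find_spec hP
  have hmin : ∀ U' : Submodule K Y, U' ≤ E → U' ≠ ⊥ → (∀ g, ∀ x ∈ U', R g x ∈ U') →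
      Module.finrank K U ≤ Module.finrank K U' := by
    intro U' h1 h2 h3
    rw [hUn]
    exact Nat.find_min' hP ⟨U', h1, h2, h3, rfl⟩
  let ρ : G →* Module.End K U :=
    { toFun := fun g => (R g).restrict (hU g)
      map_one' := by
        ext x
        simp
      map_mul' := by
        intro g h
        ext x
        simp }
  have hρ : ∀ g (x : U), ((ρ g x : U) : Y) = R g x := fun g x => rfl
  have : Nontrivial U := Submodule.nontrivial_iff_ne_bot.2 hU0
  have hirr : ∀ U' : Submodule K U, (∀ g, ∀ x ∈ U', ρ g x ∈ U') → U' = ⊥ ∨ U' = ⊤ := by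
    intro U' hU'
    by_cases h0 : U' = ⊥
    · exact Or.inl h0
    right
    apply Submodule.eq_top_of_finrank_eq
    apply le_antisymm (Submodule.finrank_le _)
    rw [← Submodule.finrank_map_subtype_eq U U']
    apply hmin
    · rintro _ ⟨x, _, rfl⟩
      exact hUE x.2
    · intro h1
      apply h0
      rw [eq_bot_iff]
      intro x hx
      have h4 : (x : Y) ∈ Submodule.map U.subtype U' := ⟨x, hx, rfl⟩
      rw [h1] at h4
      simpa using h4
    · rintro g _ ⟨x, hx, rfl⟩
      exact ⟨ρ g x, hU' g x hx, rfl⟩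
  have hrel : ∀ (g : G) (a : K), (∀ x ∈ E, R g (R g x) - a • R g x + (χ g : K) • x = 0) →
      ρ g * ρ g - a • ρ g + (χ g : K) • 1 = 0 := by
    intro g a h
    ext x
    have := h x (hUE x.2)
    simpa [hρ] using this
  obtain ⟨ρ', h0, h1, h2⟩ := quad_rep_ss ρ hirr χ (fun g => by
    obtain ⟨a, ha⟩ := hq g
    exact ⟨a, hrel g a ha⟩)
  refine ⟨ρ', h0, fun g hg hχ => h1 g ?_ hχ, fun g a ha => h2 g a (hrel g a ha)⟩
  ext x
  simp [hρ, hg x (hUE x.2)]

end Fermat.Agent.S48.RHO
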